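/-
GATE-J / J4-ALG (helper27): the quadratic-relation algebra behind (ES) ⇒ S29 / S42.  Mathlib only.

`K` a field, `V` a finite-dimensional `K`-space, `G` a group, `r : G →* End_K V`,
`d : G →* K`, `a : G → K` with `r g ^ 2 - a g • r g + d g = 0` for all `g`.

* `pow_quadratic` (Q0): a root of `X² - aX + e` has all its powers roots of `X² - v_j X + e^j`.
* `finrank_le_two_of_quadratic` (Q1): if the `r g` span `End V`, then `dim V ≤ 2`.
* `charpoly_eq_of_quadratic` (Q2): if moreover `dim V = 2` then `charpoly (r g) = X² - a g X + d g`.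
* `exists_two_dim_of_character` (Q3): a character `χ` with `χ² - a χ + d = 0` gives the
  two-dimensional representation `χ ⊕ d/χ` with the same characteristic polynomials.
-/
import Mathlib

set_option autoImplicit false

namespace Fermat.Agent.GJ.J4

open Polynomial

variable {K : Type*} [Field K] {V : Type*} [AddCommGroup V] [Module K V]

/-! ### Q0: powers -/

theorem pow_quadratic (T : Module.End K V) (a e : K) (h : T * T - a • T + e • 1 = 0) (j : ℕ) :
    ∃ v : K, T ^ j * T ^ j - v • T ^ j + e ^ j • (1 : Module.End K V) = 0 := by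
  set T' : Module.End K V := a • 1 - T with hT'
  have hT2 : T * T = a • T - e • 1 := by
    have := h
    rw [← sub_eq_zero]
    rw [← this]
    abel
  have hc : Commute T T' := ((Commute.one_right T).smul_right a).sub_right (Commute.refl T)
  have hprod : T * T' = e • 1 := by
    rw [hT', mul_sub, mul_smul_comm, mul_one, hT2]
    abel
  have hT'2 : T' * T' = a • T' - e • 1 := by
    have h1 : T' * T' = a • T' - T * T' := by
      conv_lhs => rw [hT']
      rw [sub_mul, smul_mul_assoc, one_mul]
    rw [h1, hprod]
  have hstep : ∀ (S : Module.End K V), S * S = a • S - e • 1 → ∀ n : ℕ,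
      S ^ (n + 2) = a • S ^ (n + 1) - e • S ^ n := by
    intro S hS n
    rw [pow_add, pow_two, hS, mul_sub, mul_smul_comm, mul_smul_comm, mul_one, ← pow_succ]
  have hsum : ∀ n : ℕ, (∃ v : K, T ^ n + T' ^ n = v • 1) ∧
      (∃ v : K, T ^ (n + 1) + T' ^ (n + 1) = v • 1) := by
    intro n
    induction n with
    | zero =>
      refine ⟨⟨2, ?_⟩, ⟨a, ?_⟩⟩
      · rw [pow_zero, pow_zero, two_smul]
      · rw [zero_add, pow_one, pow_one, hT']
        abel
    | succ n ih =>
      obtain ⟨⟨v0, h0⟩, ⟨v1, h1⟩⟩ := ih
      refine ⟨⟨v1, h1⟩, ⟨a * v1 - e * v0, ?_⟩⟩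
      rw [hstep T hT2, hstep T' hT'2]
      have : a • T ^ (n + 1) - e • T ^ n + (a • T' ^ (n + 1) - e • T' ^ n) =
          a • (T ^ (n + 1) + T' ^ (n + 1)) - e • (T ^ n + T' ^ n) := by
        rw [smul_add, smul_add]
        abel
      rw [this, h0, h1, smul_smul, smul_smul, ← sub_smul]
  obtain ⟨v, hv⟩ := (hsum j).1
  refine ⟨v, ?_⟩
  have h1 : T ^ j * T' ^ j = e ^ j • 1 := by
    rw [← hc.mul_pow, hprod, _root_.smul_pow, one_pow]
  have h2 : T ^ j * T ^ j - v • T ^ j = -(T ^ j * T' ^ j) := by
    have : v • T ^ j = T ^ j * (v • 1) := by rw [mul_smul_comm, mul_one]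
    rw [this, ← hv, mul_add]
    abel
  rw [h2, h1]
  abel

/-! ### Q1: the anti-involution argument -/

section Quad

variable {G : Type*} [Group G] (r : G →* Module.End K V) (d : G →* K) (a : G → K)

/-- the "linearised representation" `x ↦ ∑ x(g) r(g)` -/
noncomputable def linRep : (G →₀ K) →ₗ[K] Module.End K V :=
  Finsupp.linearCombination K (fun g => r g)

/-- its twist by the anti-involution `g ↦ d(g) g⁻¹` -/
noncomputable def linRepStar : (G →₀ K) →ₗ[K] Module.End K V :=
  Finsupp.linearCombination K (fun g => d g • r g⁻¹)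

@[simp] theorem linRep_single (g : G) (c : K) : linRep r (Finsupp.single g c) = c • r g := by
  simp [linRep]

@[simp] theorem linRepStar_single (g : G) (c : K) :
    linRepStar r d (Finsupp.single g c) = c • d g • r g⁻¹ := by
  simp [linRepStar]

variable {r d a}

theorem inv_relation (hq : ∀ g, r g * r g - a g • r g + d g • 1 = 0) (g : G) :
    r g + d g • r g⁻¹ = a g • 1 := by
  have h1 : r g⁻¹ * r g = 1 := by rw [← map_mul, inv_mul_cancel, map_one]
  have h := congrArg (fun T => r g⁻¹ * T) (hq g)
  simp only [mul_add, mul_sub, mul_zero, mul_smul_comm, mul_one, ← mul_assoc, h1, one_mul] at h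
  rw [← sub_eq_zero, ← h]
  abel

theorem cross_single (hq : ∀ g, r g * r g - a g • r g + d g • 1 = 0) (g h : G) :
    d h • r (g * h⁻¹) + d g • r (h * g⁻¹) = (d h * a (g * h⁻¹)) • 1 := by
  have h1 := inv_relation hq (g * h⁻¹)
  have h2 : (g * h⁻¹)⁻¹ = h * g⁻¹ := by group
  have h3 : d g = d h * d (g * h⁻¹) := by
    rw [mul_comm, ← map_mul, inv_mul_cancel_right]
  rw [h2] at h1
  rw [h3, mul_smul, ← smul_add, h1, smul_smul]

/-- the symmetrised product is scalar -/
theorem exists_cross (hq : ∀ g, r g * r g - a g • r g + d g • 1 = 0) (x y : G →₀ K) :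
    ∃ t : K, linRep r x * linRepStar r d y + linRep r y * linRepStar r d x = t • 1 := by
  induction x using Finsupp.induction_linear with
  | zero => exact ⟨0, by simp⟩
  | add x₁ x₂ h₁ h₂ =>
    obtain ⟨t₁, ht₁⟩ := h₁
    obtain ⟨t₂, ht₂⟩ := h₂
    refine ⟨t₁ + t₂, ?_⟩
    rw [map_add, map_add, add_mul, mul_add, add_smul, ← ht₁, ← ht₂]
    abel
  | single g c =>
    induction y using Finsupp.induction_linear with
    | zero => exact ⟨0, by simp⟩
    | add y₁ y₂ h₁ h₂ =>
      obtain ⟨t₁, ht₁⟩ := h₁
      obtain ⟨t₂, ht₂⟩ := h₂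
      refine ⟨t₁ + t₂, ?_⟩
      rw [map_add, map_add, add_mul, mul_add, add_smul, ← ht₁, ← ht₂]
      abel
    | single h c' =>
      refine ⟨c * c' * (d h * a (g * h⁻¹)), ?_⟩
      rw [linRep_single, linRep_single, linRepStar_single, linRepStar_single]
      have := cross_single hq g h
      simp only [smul_mul_assoc, mul_smul_comm, ← map_mul, smul_smul] at this ⊢
      rw [mul_smul (c * c'), ← this, smul_add, smul_smul, smul_smul]
      congr 1
      · congr 1
        ring
      · congr 1
        ring

/-- `R x · R x*` is scalar -/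
theorem exists_norm (hq : ∀ g, r g * r g - a g • r g + d g • 1 = 0) (x : G →₀ K) :
    ∃ t : K, linRep r x * linRepStar r d x = t • 1 := by
  induction x using Finsupp.induction with
  | zero => exact ⟨0, by simp⟩
  | single_add g c x' _ _ ih =>
    obtain ⟨t, ht⟩ := ih
    obtain ⟨u, hu⟩ := exists_cross hq (Finsupp.single g c) x'
    have h1 : r g * r g⁻¹ = 1 := by rw [← map_mul, mul_inv_cancel, map_one]
    refine ⟨c * c * d g + u + t, ?_⟩
    rw [map_add, map_add, add_mul, mul_add, mul_add, ht]
    have h2 : linRep r (Finsupp.single g c) * linRepStar r d (Finsupp.single g c) =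
        (c * c * d g) • 1 := by
      rw [linRep_single, linRepStar_single, smul_mul_assoc, mul_smul_comm, mul_smul_comm, h1,
        smul_smul, smul_smul]
    rw [h2, add_smul, add_smul, ← hu]
    abel

/-- the trace-like sum is scalar -/
theorem exists_trace (hq : ∀ g, r g * r g - a g • r g + d g • 1 = 0) (x : G →₀ K) :
    ∃ s : K, linRep r x + linRepStar r d x = s • 1 := by
  induction x using Finsupp.induction_linear with
  | zero => exact ⟨0, by simp⟩
  | add x₁ x₂ h₁ h₂ =>
    obtain ⟨t₁, ht₁⟩ := h₁
    obtain ⟨t₂, ht₂⟩ := h₂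
    refine ⟨t₁ + t₂, ?_⟩
    rw [map_add, map_add, add_smul, ← ht₁, ← ht₂]
    abel
  | single g c =>
    refine ⟨c * a g, ?_⟩
    rw [linRep_single, linRepStar_single, ← smul_add, inv_relation hq, smul_smul]

/-- every element of the span of the `r g` is a root of a monic quadratic polynomial -/
theorem exists_quadratic_of_mem_span (hq : ∀ g, r g * r g - a g • r g + d g • 1 = 0)
    {T : Module.End K V} (hT : T ∈ Submodule.span K (Set.range r)) :
    ∃ s t : K, T * T - s • T + t • 1 = 0 := by
  have hx : ∃ x : G →₀ K, linRep r x = T := by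
    have : Submodule.span K (Set.range r) ≤ LinearMap.range (linRep r) := by
      rw [Submodule.span_le]
      rintro _ ⟨g, rfl⟩
      exact ⟨Finsupp.single g 1, by simp⟩
    exact this hT
  obtain ⟨x, rfl⟩ := hx
  obtain ⟨s, hs⟩ := exists_trace hq x
  obtain ⟨t, ht⟩ := exists_norm hq x
  refine ⟨s, t, ?_⟩
  have h1 : linRepStar r d x = s • 1 - linRep r x := by
    rw [← hs]
    abel
  rw [h1, mul_sub, mul_smul_comm, mul_one] at ht
  rw [← ht]
  abel

/-- if every endomorphism of a finite-dimensional space is a root of a monic quadratic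
polynomial then the dimension is at most two -/
theorem finrank_le_two_of_forall_quadratic [Module.Finite K V]
    (h : ∀ T : Module.End K V, ∃ s t : K, T * T - s • T + t • 1 = 0) :
    Module.finrank K V ≤ 2 := by
  classical
  by_contra hcon
  have hcon' : 2 < Module.finrank K V := not_le.mp hcon
  let b : Module.Basis (Fin (Module.finrank K V)) K V := Module.finBasis K V
  let i0 : Fin (Module.finrank K V) := ⟨0, by omega⟩
  let i1 : Fin (Module.finrank K V) := ⟨1, by omega⟩
  let i2 : Fin (Module.finrank K V) := ⟨2, by omega⟩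
  have h01 : i0 ≠ i1 := by simp [i0, i1, Fin.ext_iff]
  have h02 : i0 ≠ i2 := by simp [i0, i2, Fin.ext_iff]
  have h12 : i1 ≠ i2 := by simp [i1, i2, Fin.ext_iff]
  let T : Module.End K V :=
    b.constr K (fun i => if i = i0 then b i1 else if i = i1 then b i2 else 0)
  have hT0 : T (b i0) = b i1 := by
    simp only [T, Module.Basis.constr_basis, if_true]
  have hT1 : T (b i1) = b i2 := by
    simp only [T, Module.Basis.constr_basis, if_neg h01.symm, if_true]
  obtain ⟨s, t, hst⟩ := h T
  have h1 := LinearMap.congr_fun hst (b i0)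
  simp only [LinearMap.add_apply, LinearMap.sub_apply, Module.End.mul_apply, LinearMap.smul_apply,
    Module.End.one_apply, LinearMap.zero_apply, hT0, hT1] at h1
  have h2 := congrArg (fun v => b.repr v i2) h1
  simp [h02, h12] at h2

/-- **Q1**: if the `r g` span `End V` and satisfy the quadratic relations then `dim V ≤ 2`. -/
theorem finrank_le_two_of_quadratic [Module.Finite K V]
    (hspan : Submodule.span K (Set.range r) = ⊤)
    (hq : ∀ g, r g * r g - a g • r g + d g • 1 = 0) :
    Module.finrank K V ≤ 2 :=
  finrank_le_two_of_forall_quadratic fun _ =>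
    exists_quadratic_of_mem_span hq (hspan ▸ Submodule.mem_top)

end Quad

/-! ### Q2: the characteristic polynomial in dimension two -/

/-- a non-scalar endomorphism is annihilated by at most one monic quadratic polynomial -/
theorem quadratic_unique_of_not_scalar [Nontrivial V] (T : Module.End K V)
    (hns : ∀ c : K, T ≠ c • 1) {s t s' t' : K}
    (h : T * T - s • T + t • 1 = 0) (h' : T * T - s' • T + t' • 1 = 0) : s = s' ∧ t = t' := by
  have h1 : (s' - s) • T + (t - t') • (1 : Module.End K V) = 0 := by
    have : (s' - s) • T + (t - t') • (1 : Module.End K V) =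
        (T * T - s • T + t • 1) - (T * T - s' • T + t' • 1) := by
      rw [sub_smul, sub_smul]
      abel
    rw [this, h, h', sub_zero]
  have hs : s' - s = 0 := by
    by_contra hne
    apply hns (-(s' - s)⁻¹ * (t - t'))
    have h2 : (s' - s) • T = -((t - t') • (1 : Module.End K V)) := eq_neg_of_add_eq_zero_left h1
    have h3 : T = (s' - s)⁻¹ • ((s' - s) • T) := by
      rw [smul_smul, inv_mul_cancel₀ hne, one_smul]
    rw [h3, h2, smul_neg, smul_smul, neg_mul, neg_smul]
  rw [hs, zero_smul, zero_add] at h1
  have ht : t - t' = 0 := by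
    by_contra hne
    obtain ⟨v, hv⟩ := exists_ne (0 : V)
    have := LinearMap.congr_fun h1 v
    simp only [LinearMap.smul_apply, Module.End.one_apply, LinearMap.zero_apply, smul_eq_zero] at this
    rcases this with h4 | h4
    · exact hne h4
    · exact hv h4
  exact ⟨(sub_eq_zero.mp hs).symm, sub_eq_zero.mp ht⟩

/-- Cayley–Hamilton in dimension two, in the shape of a quadratic relation -/
theorem exists_charpoly_quadratic [Module.Finite K V] (h2 : Module.finrank K V = 2)
    (T : Module.End K V) :
    ∃ s t : K, T.charpoly = X ^ 2 - C s * X + C t ∧ T * T - s • T + t • 1 = 0 := by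
  classical
  let b : Module.Basis (Fin 2) K V := Module.finBasisOfFinrankEq K V h2
  refine ⟨(LinearMap.toMatrix b b T).trace, (LinearMap.toMatrix b b T).det, ?_, ?_⟩
  · rw [← LinearMap.charpoly_toMatrix T b, Matrix.charpoly_fin_two]
  · have h := LinearMap.aeval_self_charpoly T
    rw [← LinearMap.charpoly_toMatrix T b, Matrix.charpoly_fin_two] at h
    simpa [pow_two, Algebra.smul_def] using h

/-- the characteristic polynomial of a scalar in dimension two -/
theorem charpoly_smul_one [Module.Finite K V] (h2 : Module.finrank K V = 2) (c : K) :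
    (c • (1 : Module.End K V)).charpoly = X ^ 2 - C (2 * c) * X + C (c * c) := by
  classical
  let b : Module.Basis (Fin 2) K V := Module.finBasisOfFinrankEq K V h2
  rw [← LinearMap.charpoly_toMatrix _ b, Matrix.charpoly_fin_two, map_smul, LinearMap.toMatrix_one]
  have ht : (c • (1 : Matrix (Fin 2) (Fin 2) K)).trace = 2 * c := by
    simp; ring
  have hd : (c • (1 : Matrix (Fin 2) (Fin 2) K)).det = c * c := by
    simp; ring
  rw [ht, hd]

/-- in dimension two there is a non-scalar endomorphism -/
theorem exists_not_scalar [Module.Finite K V] (h2 : Module.finrank K V = 2) :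
    ∃ T : Module.End K V, ∀ c : K, T ≠ c • 1 := by
  classical
  let b : Module.Basis (Fin 2) K V := Module.finBasisOfFinrankEq K V h2
  refine ⟨b.constr K ![b 1, 0], fun c hc => ?_⟩
  have h1 := LinearMap.congr_fun hc (b 0)
  simp only [Module.Basis.constr_basis, LinearMap.smul_apply, Module.End.one_apply] at h1
  have h3 := congrArg (fun v => b.repr v 1) h1
  simp at h3


section Quad2

variable {G : Type*} [Group G] {r : G →* Module.End K V} {d : G →* K} {a : G → K}

theorem d_ne_zero (d : G →* K) (g : G) : d g ≠ 0 := by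
  intro h0
  have h1 : d g * d g⁻¹ = 1 := by rw [← map_mul, mul_inv_cancel, map_one]
  rw [h0, zero_mul] at h1
  exact zero_ne_one h1

/-- if the `r g` span `End V` in dimension two, some `r h` is not a scalar -/
theorem exists_not_scalar_of_span [Module.Finite K V]
    (hspan : Submodule.span K (Set.range r) = ⊤) (h2 : Module.finrank K V = 2) :
    ∃ h : G, ∀ c : K, r h ≠ c • 1 := by
  by_contra hcon
  push Not at hcon
  obtain ⟨T, hT⟩ := exists_not_scalar (K := K) (V := V) h2
  have hle : Submodule.span K (Set.range r) ≤ Submodule.span K {(1 : Module.End K V)} := by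
    rw [Submodule.span_le]
    rintro _ ⟨g, rfl⟩
    obtain ⟨c, hc⟩ := hcon g
    rw [hc]
    exact Submodule.smul_mem _ _ (Submodule.subset_span rfl)
  have hmem : T ∈ Submodule.span K {(1 : Module.End K V)} := hle (hspan ▸ Submodule.mem_top)
  obtain ⟨c, hc⟩ := Submodule.mem_span_singleton.mp hmem
  exact hT c hc.symm

/-- **Q2**: in dimension two, if some `r h` is not a scalar, the quadratic relation is the
characteristic polynomial (also for the scalar `r g`). -/
theorem charpoly_eq_of_quadratic' [Module.Finite K V]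
    (hex : ∃ h : G, ∀ c : K, r h ≠ c • 1) (h2 : Module.finrank K V = 2)
    (hq : ∀ g, r g * r g - a g • r g + d g • 1 = 0) (g : G) :
    (r g).charpoly = X ^ 2 - C (a g) * X + C (d g) := by
  have : Nontrivial V := Module.nontrivial_of_finrank_pos (R := K) (by omega)
  by_cases hns : ∀ c : K, r g ≠ c • 1
  · obtain ⟨s, t, hcp, hch⟩ := exists_charpoly_quadratic h2 (r g)
    obtain ⟨hs, ht⟩ := quadratic_unique_of_not_scalar (r g) hns hch (hq g)
    rw [hcp, hs, ht]
  · push Not at hns
    obtain ⟨c, hc⟩ := hns
    obtain ⟨h, hh⟩ := hex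
    have hc0 : c ≠ 0 := by
      intro h0
      have h1 : r g * r g⁻¹ = 1 := by rw [← map_mul, mul_inv_cancel, map_one]
      rw [hc, h0, zero_smul, zero_mul] at h1
      exact zero_ne_one h1
    have hgh : r (g * h) = c • r h := by rw [map_mul, hc, smul_mul_assoc, one_mul]
    -- the relation for `g * h`, divided by `c²`
    have hrel : r h * r h - (c⁻¹ * a (g * h)) • r h + (c⁻¹ * c⁻¹ * (d g * d h)) • 1 = 0 := by
      have h1 := hq (g * h)
      rw [hgh, map_mul] at h1
      have h3 : r h * r h - (c⁻¹ * a (g * h)) • r h + (c⁻¹ * c⁻¹ * (d g * d h)) • 1 =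
          (c⁻¹ * c⁻¹) • (c • r h * c • r h - a (g * h) • c • r h + (d g * d h) • 1) := by
        rw [smul_add, smul_sub, smul_mul_assoc, mul_smul_comm, smul_smul, smul_smul, smul_smul,
          smul_smul]
        have e1 : c⁻¹ * c⁻¹ * c * c = 1 := by field_simp
        have e2 : c⁻¹ * c⁻¹ * a (g * h) * c = c⁻¹ * a (g * h) := by field_simp
        rw [e1, e2, one_smul, smul_smul]
      rw [h3, h1, smul_zero]
    obtain ⟨-, hd⟩ := quadratic_unique_of_not_scalar (r h) hh (hq h) hrel
    have hdh : d h ≠ 0 := d_ne_zero d h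
    have hdg : d g = c * c := by
      have h5 : d h * (c * c) = d h * d g := by
        conv_lhs => rw [hd]
        field_simp
      exact (mul_left_cancel₀ hdh h5).symm
    have hag : a g = 2 * c := by
      have h1 := hq g
      rw [hc, smul_mul_assoc, one_mul, smul_smul, smul_smul, ← sub_smul, ← add_smul, hdg] at h1
      have h6 : c * c - a g * c + c * c = 0 := by
        by_contra hne
        obtain ⟨v, hv⟩ := exists_ne (0 : V)
        have := LinearMap.congr_fun h1 v
        simp only [LinearMap.smul_apply, Module.End.one_apply, LinearMap.zero_apply,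
          smul_eq_zero] at this
        rcases this with h4 | h4
        · exact hne h4
        · exact hv h4
      have h7 : c * (2 * c - a g) = 0 := by rw [← h6]; ring
      rcases mul_eq_zero.mp h7 with h8 | h8
      · exact absurd h8 hc0
      · exact (sub_eq_zero.mp h8).symm
    rw [hc, charpoly_smul_one h2, hag, hdg]

/-- **Q2**, spanning form. -/
theorem charpoly_eq_of_quadratic [Module.Finite K V]
    (hspan : Submodule.span K (Set.range r) = ⊤) (h2 : Module.finrank K V = 2)
    (hq : ∀ g, r g * r g - a g • r g + d g • 1 = 0) (g : G) :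
    (r g).charpoly = X ^ 2 - C (a g) * X + C (d g) :=
  charpoly_eq_of_quadratic' (exists_not_scalar_of_span hspan h2) h2 hq g

end Quad2

/-! ### Q3: the one-dimensional case -/

section Char

variable {G : Type*} [Group G]

/-- the complementary character `d / χ`, written with the inverse of `G` -/
def coChar (χ d : G →* K) : G →* K where
  toFun g := d g * χ g⁻¹
  map_one' := by simp
  map_mul' g h := by
    simp only [map_mul, mul_inv_rev]
    ring

theorem coChar_apply (χ d : G →* K) (g : G) : coChar χ d g = d g * χ g⁻¹ := rfl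

theorem char_mul_coChar (χ d : G →* K) (g : G) : χ g * coChar χ d g = d g := by
  rw [coChar_apply, mul_left_comm, ← map_mul, mul_inv_cancel, map_one, mul_one]

/-- the diagonal representation `χ ⊕ ψ` -/
def diagRep (χ ψ : G →* K) : G →* Matrix (Fin 2) (Fin 2) K where
  toFun g := Matrix.diagonal ![χ g, ψ g]
  map_one' := by
    ext i j
    fin_cases i <;> fin_cases j <;> simp
  map_mul' g h := by
    ext i j
    fin_cases i <;> fin_cases j <;> simp [Matrix.mul_apply, Fin.sum_univ_two]

theorem diagRep_apply (χ ψ : G →* K) (g : G) : diagRep χ ψ g = Matrix.diagonal ![χ g, ψ g] := rfl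

theorem diagRep_charpoly (χ ψ : G →* K) (g : G) :
    (diagRep χ ψ g).charpoly = X ^ 2 - C (χ g + ψ g) * X + C (χ g * ψ g) := by
  rw [Matrix.charpoly_fin_two, diagRep_apply]
  have ht : (Matrix.diagonal ![χ g, ψ g]).trace = χ g + ψ g := by
    simp
  have hd : (Matrix.diagonal ![χ g, ψ g]).det = χ g * ψ g := by
    simp
  rw [ht, hd]

/-- **Q3**: a character `χ` with `χ² - a χ + d = 0` gives the two-dimensional representation
`χ ⊕ d/χ` with characteristic polynomials `X² - a X + d`; it is trivial wherever `χ` and `d`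
are. -/
theorem exists_two_dim_of_character (χ d : G →* K) (a : G → K)
    (hχ : ∀ g, χ g * χ g - a g * χ g + d g = 0) :
    ∃ r2 : G →* Matrix (Fin 2) (Fin 2) K,
      (∀ g, χ g = 1 → d g = 1 → r2 g = 1) ∧
      ∀ g, (r2 g).charpoly = X ^ 2 - C (a g) * X + C (d g) := by
  refine ⟨diagRep χ (coChar χ d), ?_, ?_⟩
  · intro g h1 h2
    have h3 : coChar χ d g = 1 := by
      have := char_mul_coChar χ d g
      rw [h1, h2, one_mul] at this
      exact this
    rw [diagRep_apply, h1, h3]
    ext i j
    fin_cases i <;> fin_cases j <;> simp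
  · intro g
    have hne : χ g ≠ 0 := d_ne_zero χ g
    have h1 : χ g * coChar χ d g = d g := char_mul_coChar χ d g
    have h2 : χ g + coChar χ d g = a g := by
      have : χ g * (χ g + coChar χ d g) = χ g * a g := by
        rw [mul_add, h1]
        have := hχ g
        rw [mul_comm (χ g) (a g), ← sub_eq_zero, ← this]
        ring
      exact mul_left_cancel₀ hne this
    rw [diagRep_charpoly, h1, h2]

end Char

end Fermat.Agent.GJ.J4
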