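/-
GATE-J / J4-ASM (helper31): hypothesis-form assembly of S29.

Inputs (each a named `Prop`, discharged elsewhere):
* `FrobLift.FrobGenQ`           (J4-FROB, helper77)  Frobenius' existence theorem over `ℚ`;
* `RepTwoStmt k0`               (J4-ALG, helper85/helper27)  quadratic relations ⇒ 2-dim rep;
* `HasCycChar p k0`             (J4-CYC, helper8)  mod-`p` cyclotomic character with values in `k0ˣ`;
* `HasESModule N p k0 a`        (J2 (EIG) + J3 (ES))  a nonzero finite-level `k0[G_ℚ]`-module,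
  unramified outside `Np`, on which every Frobenius lift at `ℓ ∤ Np` satisfies
  `τ² - a ℓ τ + ℓ = 0`.

Outputs: `exists_residualGaloisRep_of_esModule` (a `ResidualGaloisRep k0` with the right
characteristic polynomials, unramified outside `Np`) and `s29_of_core` (the frozen S29 shape).
-/
import Mathlib
import Fermat.Prelude.Def_GaloisRep_Residual
import Fermat.Agent.GJ.FrobLift
import Fermat.Agent.GJ.J4.Quad

set_option autoImplicit false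
set_option linter.style.haveILetI false

open Polynomial

namespace Fermat.Agent.GJ.J4Asm

/-- `ℚ̄`. -/
local notation "Qb" => AlgebraicClosure ℚ
/-- `G_ℚ`. -/
local notation "GQ" => (AlgebraicClosure ℚ ≃ₐ[ℚ] AlgebraicClosure ℚ)

/-! ### The interfaces -/

/-- (ESM) the combined output of (EIG) and (ES): a nonzero finite-dimensional `k0`-representation
of `G_ℚ` of finite level, unramified outside `Np`, on which every Frobenius lift `τ` at a prime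
`ℓ ∤ Np` satisfies `τ² - a ℓ • τ + ℓ = 0`. -/
def HasESModule (N p : ℕ) (k0 : Type) [Field k0] (a : ℕ → k0) : Prop :=
  ∃ (V : Type) (_ : AddCommGroup V) (_ : Module k0 V) (r : GQ →* Module.End k0 V),
    Module.Finite k0 V ∧ Nontrivial V ∧ GaloisFactorsThroughFiniteLevel r ∧
    (∀ ℓ : ℕ, ℓ.Prime → ¬ ℓ ∣ N * p → ∀ A : ValuationSubring Qb, A.LiesOverPrime ℓ →
      ∀ σ ∈ A.inertiaSubgroupIn ℚ, r σ = 1) ∧
    (∀ ℓ : ℕ, ℓ.Prime → ¬ ℓ ∣ N * p → ∀ A : ValuationSubring Qb, A.LiesOverPrime ℓ →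
      ∀ τ : GQ, A.IsFrobeniusAt τ ℓ → r τ * r τ - a ℓ • r τ + (ℓ : k0) • 1 = 0)

/-- (CYC) a mod-`p` cyclotomic character with values in `k0ˣ`: finite level, trivial on inertia
at `ℓ ≠ p`, value `ℓ` on Frobenius lifts at `ℓ ≠ p`. -/
def HasCycChar (p : ℕ) (k0 : Type) [Field k0] : Prop :=
  ∃ d : GQ →* k0ˣ, GaloisFactorsThroughFiniteLevel d ∧
    (∀ ℓ : ℕ, ℓ.Prime → ℓ ≠ p → ∀ A : ValuationSubring Qb, A.LiesOverPrime ℓ →
      ∀ σ ∈ A.inertiaSubgroupIn ℚ, d σ = 1) ∧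
    (∀ ℓ : ℕ, ℓ.Prime → ℓ ≠ p → ∀ A : ValuationSubring Qb, A.LiesOverPrime ℓ →
      ∀ τ : GQ, A.IsFrobeniusAt τ ℓ → ((d τ : k0ˣ) : k0) = (ℓ : k0))

/-- (ALG) the statement of `exists_rep_two` for `G = G_ℚ` and `Type`-valued data. -/
def RepTwoStmt (k0 : Type) [Field k0] : Prop :=
  ∀ (V : Type) [AddCommGroup V] [Module k0 V] [Module.Finite k0 V] [Nontrivial V]
    (rho : GQ →* Module.End k0 V) (d : GQ →* k0ˣ),
    (∀ g, ∃ a : k0, rho g * rho g - a • rho g + ((d g : k0ˣ) : k0) • 1 = 0) →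
    ∃ rho2 : GQ →* Matrix (Fin 2) (Fin 2) k0,
      (∀ g, rho g = 1 → d g = 1 → rho2 g = 1) ∧
      ∀ (g : GQ) (a : k0), rho g * rho g - a • rho g + ((d g : k0ˣ) : k0) • 1 = 0 →
        (rho2 g).charpoly = X ^ 2 - C a * X + C ((d g : k0ˣ) : k0)

/-! ### Finite level of a product -/

theorem factorsThroughFiniteLevel_prod {M M' : Type} [Monoid M] [Monoid M']
    (ρ : GQ →* M) (ρ' : GQ →* M') (h : GaloisFactorsThroughFiniteLevel ρ)
    (h' : GaloisFactorsThroughFiniteLevel ρ') :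
    GaloisFactorsThroughFiniteLevel (ρ.prod ρ') := by
  obtain ⟨L, hL, h1⟩ := h
  obtain ⟨L', hL', h1'⟩ := h'
  have : FiniteDimensional ℚ L := hL
  have : FiniteDimensional ℚ L' := hL'
  refine ⟨L ⊔ L', IntermediateField.finiteDimensional_sup L L', fun σ hσ => ?_⟩
  rw [MonoidHom.prod_apply, Prod.mk_eq_one]
  exact ⟨h1 σ fun x hx => hσ x ((le_sup_left : L ≤ L ⊔ L') hx),
    h1' σ fun x hx => hσ x ((le_sup_right : L' ≤ L ⊔ L') hx)⟩

/-- The trivial two-dimensional residual representation. -/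
noncomputable def trivialRep (k0 : Type) [Field k0] : ResidualGaloisRep k0 where
  V := Fin 2 → k0
  finrank_eq := by simp
  ρ := 1
  factorsThroughFiniteLevel := ⟨⊥, inferInstance, fun _ _ => rfl⟩

/-- A two-dimensional matrix representation of finite level, as a `ResidualGaloisRep`. -/
noncomputable def ofMatrixRep {k0 : Type} [Field k0] (rho2 : GQ →* Matrix (Fin 2) (Fin 2) k0)
    (h : GaloisFactorsThroughFiniteLevel rho2) : ResidualGaloisRep k0 where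
  V := Fin 2 → k0
  finrank_eq := by simp
  ρ := (Matrix.toLinAlgEquiv' : Matrix (Fin 2) (Fin 2) k0 ≃ₐ[k0] _).toAlgHom.toRingHom.toMonoidHom.comp
    rho2
  factorsThroughFiniteLevel := by
    obtain ⟨L, hL, h1⟩ := h
    refine ⟨L, hL, fun σ hσ => ?_⟩
    rw [MonoidHom.comp_apply, h1 σ hσ, map_one]

theorem ofMatrixRep_ρ_apply {k0 : Type} [Field k0] (rho2 : GQ →* Matrix (Fin 2) (Fin 2) k0)
    (h : GaloisFactorsThroughFiniteLevel rho2) (σ : GQ) :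
    (ofMatrixRep rho2 h).ρ σ = Matrix.toLin' (rho2 σ) := rfl

theorem ofMatrixRep_charpoly {k0 : Type} [Field k0] (rho2 : GQ →* Matrix (Fin 2) (Fin 2) k0)
    (h : GaloisFactorsThroughFiniteLevel rho2) (σ : GQ) :
    LinearMap.charpoly ((ofMatrixRep rho2 h).ρ σ) = (rho2 σ).charpoly :=
  Matrix.charpoly_toLin' (rho2 σ)

theorem ofMatrixRep_ρ_eq_one {k0 : Type} [Field k0] (rho2 : GQ →* Matrix (Fin 2) (Fin 2) k0)
    (h : GaloisFactorsThroughFiniteLevel rho2) (σ : GQ) (hσ : rho2 σ = 1) :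
    (ofMatrixRep rho2 h).ρ σ = 1 := by
  rw [ofMatrixRep_ρ_apply, hσ]
  exact Matrix.toLin'_one

/-! ### (ESM) ⇒ residual representation over `k0` -/

theorem exists_residualGaloisRep_of_esModule (hF : FrobLift.FrobGenQ) {N p : ℕ} {k0 : Type}
    [Field k0] (hALG : RepTwoStmt k0) (hCYC : HasCycChar p k0) (a : ℕ → k0)
    (h : HasESModule N p k0 a) :
    ∃ ρ : ResidualGaloisRep k0,
      (∀ ℓ : ℕ, ℓ.Prime → ¬ ℓ ∣ N * p → ∀ A : ValuationSubring Qb, A.LiesOverPrime ℓ →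
        ∀ τ : GQ, A.IsFrobeniusAt τ ℓ →
          LinearMap.charpoly (ρ.ρ τ) = X ^ 2 - C (a ℓ) * X + C (ℓ : k0)) ∧
      ∀ ℓ : ℕ, ℓ.Prime → ¬ ℓ ∣ N * p → ρ.IsUnramifiedAt ℓ := by
  classical
  by_cases hNp : N * p = 0
  · exact ⟨trivialRep k0, fun ℓ _ hℓ => absurd (hNp ▸ dvd_zero ℓ) hℓ,
      fun ℓ _ hℓ => absurd (hNp ▸ dvd_zero ℓ) hℓ⟩
  obtain ⟨V, _, _, r, hfin, hnt, hlev, hunr, hfrob⟩ := h
  obtain ⟨d, hdlev, hdunr, hdfrob⟩ := hCYC
  have hne : ∀ ℓ : ℕ, ¬ ℓ ∣ N * p → ℓ ≠ p := fun ℓ h1 h2 => h1 (h2 ▸ dvd_mul_left ℓ N)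
  have hlevprod := factorsThroughFiniteLevel_prod r d hlev hdlev
  have hquad : ∀ g, ∃ a' : k0, r g * r g - a' • r g + ((d g : k0ˣ) : k0) • 1 = 0 := by
    intro g
    obtain ⟨ℓ, A, τ, j, hℓ, hℓB, hA, hτ, hg⟩ :=
      FrobLift.exists_isFrobeniusAt_pow hF (r.prod d) hlevprod (N * p).primeFactors g
    have hℓNp : ¬ ℓ ∣ N * p := fun hdvd => hℓB (Nat.mem_primeFactors.mpr ⟨hℓ, hdvd, hNp⟩)
    have h1 := hfrob ℓ hℓ hℓNp A hA τ hτ
    have h2 := hdfrob ℓ hℓ (hne ℓ hℓNp) A hA τ hτ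
    rw [MonoidHom.prod_apply, MonoidHom.prod_apply, Prod.pow_mk, Prod.mk.injEq] at hg
    obtain ⟨hg1, hg2⟩ := hg
    obtain ⟨v, hv⟩ := J4.pow_quadratic (r τ) (a ℓ) (ℓ : k0) h1 j
    refine ⟨v, ?_⟩
    rw [hg1, hg2, Units.val_pow_eq_pow_val, h2]
    exact hv
  obtain ⟨rho2, hker, hchar⟩ := hALG V r d hquad
  have hlev2 : GaloisFactorsThroughFiniteLevel rho2 := by
    obtain ⟨L, hL, h1⟩ := hlevprod
    refine ⟨L, hL, fun σ hσ => ?_⟩
    have h2 := h1 σ hσ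
    rw [MonoidHom.prod_apply, Prod.mk_eq_one] at h2
    exact hker σ h2.1 h2.2
  refine ⟨ofMatrixRep rho2 hlev2, ?_, ?_⟩
  · intro ℓ hℓ hℓNp A hA τ hτ
    rw [ofMatrixRep_charpoly]
    have h1 := hfrob ℓ hℓ hℓNp A hA τ hτ
    have h2 := hdfrob ℓ hℓ (hne ℓ hℓNp) A hA τ hτ
    rw [← h2] at h1 ⊢
    exact hchar τ (a ℓ) h1
  · intro ℓ hℓ hℓNp A hA σ hσ
    exact ofMatrixRep_ρ_eq_one rho2 hlev2 σ (hker σ (hunr ℓ hℓ hℓNp A hA σ hσ)
      (hdunr ℓ hℓ (hne ℓ hℓNp) A hA σ hσ))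

/-! ### Base change along `k0 → k`, and the frozen S29 shape -/

theorem baseChangeAlong_ρ_apply {k0 k : Type} [Field k0] [Field k] (ι : k0 →+* k)
    (ρ0 : ResidualGaloisRep k0) (σ : GQ) :
    (ρ0.baseChangeAlong ι).ρ σ =
      letI : Algebra k0 k := ι.toAlgebra
      (ρ0.ρ σ).baseChange k := rfl

theorem baseChangeAlong_charpoly {k0 k : Type} [Field k0] [Field k] (ι : k0 →+* k)
    (ρ0 : ResidualGaloisRep k0) (σ : GQ) :
    LinearMap.charpoly ((ρ0.baseChangeAlong ι).ρ σ) = (LinearMap.charpoly (ρ0.ρ σ)).map ι := by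
  letI : Algebra k0 k := ι.toAlgebra
  exact LinearMap.charpoly_baseChange (A := k) (ρ0.ρ σ)

theorem baseChangeAlong_ρ_eq_one {k0 k : Type} [Field k0] [Field k] (ι : k0 →+* k)
    (ρ0 : ResidualGaloisRep k0) (σ : GQ) (h : ρ0.ρ σ = 1) :
    (ρ0.baseChangeAlong ι).ρ σ = 1 := by
  letI : Algebra k0 k := ι.toAlgebra
  rw [baseChangeAlong_ρ_apply, h]
  exact LinearMap.baseChange_one ..

/-- The frozen S29 statement from the core data: a finite(ly generated) coefficient field `k0`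
with an embedding `ι : k0 → k`, Hecke eigenvalues `a ℓ ∈ k0` lifting `φ (a_ℓ(g))`, and the three
interface statements over `k0`. (For `N = 0` nothing is needed.) -/
theorem s29_of_core (hF : FrobLift.FrobGenQ) {N : ℕ}
    {g : CuspForm (CongruenceSubgroup.Gamma0 N) 2} {p : ℕ} (hp : p.Prime) {k : Type} [Field k]
    [CharP k p] (φ : integralClosure ℤ ℂ →+* k)
    (hcore : N ≠ 0 → ∃ (k0 : Type) (_ : Field k0) (ι : k0 →+* k) (a : ℕ → k0),
      RepTwoStmt k0 ∧ HasCycChar p k0 ∧ HasESModule N p k0 a ∧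
      ∀ ℓ : ℕ, ℓ.Prime → ¬ ℓ ∣ N → ∃ α : integralClosure ℤ ℂ,
        (α : ℂ) = ModularFormClass.qCoeff g ℓ ∧ φ α = ι (a ℓ)) :
    ∃ ρ : ResidualGaloisRep k, ρ.IsAttachedTo g φ ∧
      ∀ ℓ : ℕ, ℓ.Prime → ¬ ℓ ∣ N * p → ρ.IsUnramifiedAt ℓ := by
  by_cases hN : N = 0
  · subst hN
    exact ⟨trivialRep k, fun ℓ _ hℓ => absurd (dvd_zero ℓ) hℓ,
      fun ℓ _ hℓ => absurd (by rw [zero_mul]; exact dvd_zero ℓ) hℓ⟩
  obtain ⟨k0, _, ι, a, hALG, hCYC, hESM, ha⟩ := hcore hN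
  obtain ⟨ρ0, hchar, hunr⟩ := exists_residualGaloisRep_of_esModule hF hALG hCYC a hESM
  refine ⟨ρ0.baseChangeAlong ι, ?_, ?_⟩
  · intro ℓ hℓ hℓN hℓk A hA σ hσ
    have hℓp : ¬ ℓ ∣ p := by
      intro hdvd
      have : ℓ = p := (Nat.prime_dvd_prime_iff_eq hℓ hp).mp hdvd
      exact hℓk (this ▸ CharP.cast_eq_zero k p)
    have hℓNp : ¬ ℓ ∣ N * p := fun hdvd => (hℓ.dvd_mul.mp hdvd).elim hℓN hℓp
    obtain ⟨α, hα, hφ⟩ := ha ℓ hℓ hℓN
    refine ⟨α, hα, ?_⟩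
    rw [baseChangeAlong_charpoly, hchar ℓ hℓ hℓNp A hA σ hσ, hφ]
    simp
  · intro ℓ hℓ hℓNp A hA σ hσ
    exact baseChangeAlong_ρ_eq_one ι ρ0 σ (hunr ℓ hℓ hℓNp A hA σ hσ)

end Fermat.Agent.GJ.J4Asm
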