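/-
GATE-J / J4-ASM (helper31): the abstract junction between J2 (EIG), J3 (ES) and J4.

`KumModel N p` = an `𝔽_p`-vector space `K` (the Kummer model `Kum_p(F_N)` of `J₀(N)[p]`) with a
`G_ℚ`-action `gal`, commuting operators `T ℓ`, pointwise finite level, trivial inertia and the
Eichler–Shimura relation `τ² - T_ℓ τ + ℓ = 0` for Frobenius lifts `τ` at `ℓ ∤ Np`.
`KumModel.HasEigen k0 a` = a nonzero vector of `k0 ⊗ K` on which `T ℓ` acts through `a ℓ`.

Main result: `KumModel.hasESModule : M.HasEigen k0 a → HasESModule N p k0 a`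
(`V` := the `k0`-span of the `G_ℚ`-orbit of the eigenvector).
-/
import Mathlib
import Fermat.Agent.GJ.J4.S29Asm
import Fermat.Agent.GJ.FiniteLevel

set_option autoImplicit false
set_option linter.style.haveILetI false

open scoped TensorProduct

namespace Fermat.Agent.GJ.J4Asm

local notation "Qb" => AlgebraicClosure ℚ
local notation "GQ" => (AlgebraicClosure ℚ ≃ₐ[ℚ] AlgebraicClosure ℚ)

open FiniteLevel

/-- The abstract Kummer model at level `N` for the prime `p`. -/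
structure KumModel (N p : ℕ) where
  /-- the `𝔽_p`-vector space `Kum_p(F_N)` -/
  K : Type
  [instAddCommGroup : AddCommGroup K]
  [instModule : Module (ZMod p) K]
  /-- the Galois action -/
  gal : GQ →* Module.End (ZMod p) K
  /-- the Hecke operators (junk unless `ℓ` is a prime not dividing `N`) -/
  T : ℕ → Module.End (ZMod p) K
  T_comm_gal : ∀ (ℓ : ℕ) (σ : GQ), T ℓ * gal σ = gal σ * T ℓ
  level : ∀ x : K, HasLevel (fun σ => gal σ x = x)
  inertia : ∀ ℓ : ℕ, ℓ.Prime → ¬ ℓ ∣ N * p → ∀ A : ValuationSubring Qb, A.LiesOverPrime ℓ →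
    ∀ σ ∈ A.inertiaSubgroupIn ℚ, gal σ = 1
  frob : ∀ ℓ : ℕ, ℓ.Prime → ¬ ℓ ∣ N * p → ∀ A : ValuationSubring Qb, A.LiesOverPrime ℓ →
    ∀ τ : GQ, A.IsFrobeniusAt τ ℓ → gal τ * gal τ - T ℓ * gal τ + (ℓ : ZMod p) • 1 = 0

attribute [instance] KumModel.instAddCommGroup KumModel.instModule

namespace KumModel

variable {N p : ℕ} (M : KumModel N p)

/-- (EIG) for the model `M`: a nonzero vector of `k0 ⊗ K` on which `T ℓ` acts through `a ℓ`
for all primes `ℓ ∤ Np`. -/
def HasEigen (k0 : Type) [Field k0] [Algebra (ZMod p) k0] (a : ℕ → k0) : Prop :=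
  ∃ v : k0 ⊗[ZMod p] M.K, v ≠ 0 ∧
    ∀ ℓ : ℕ, ℓ.Prime → ¬ ℓ ∣ N * p → (M.T ℓ).baseChange k0 v = a ℓ • v

variable (k0 : Type) [Field k0] [Algebra (ZMod p) k0]

/-- The base-changed Galois action on `k0 ⊗ K`. -/
noncomputable def galB : GQ →* Module.End k0 (k0 ⊗[ZMod p] M.K) :=
  ((Module.End.baseChangeHom (ZMod p) k0 M.K : Module.End (ZMod p) M.K →ₐ[ZMod p] _) :
    Module.End (ZMod p) M.K →* _).comp M.gal

theorem galB_apply (σ : GQ) : M.galB k0 σ = (M.gal σ).baseChange k0 := rfl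

theorem galB_tmul (σ : GQ) (c : k0) (x : M.K) :
    M.galB k0 σ (c ⊗ₜ x) = c ⊗ₜ M.gal σ x := by
  rw [galB_apply, LinearMap.baseChange_tmul]

/-- Every vector of `k0 ⊗ K` has a finite-level stabiliser. -/
theorem hasLevel_galB (w : k0 ⊗[ZMod p] M.K) : HasLevel (fun σ => M.galB k0 σ w = w) := by
  induction w using TensorProduct.induction_on with
  | zero => exact hasLevel_of_forall fun σ => map_zero _
  | tmul c x =>
    refine (M.level x).mono fun σ hσ => ?_
    rw [galB_tmul, hσ]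
  | add w₁ w₂ h₁ h₂ =>
    refine (h₁.and h₂).mono fun σ hσ => ?_
    rw [map_add, hσ.1, hσ.2]

/-- Orbits of finite-level vectors are finite. -/
theorem finite_orbit {W : Type} [AddCommGroup W] [Module k0 W] (G : GQ →* Module.End k0 W) (v : W)
    (h : HasLevel (fun σ => G σ v = v)) : (Set.range fun σ : GQ => G σ v).Finite := by
  classical
  obtain ⟨E, hE, hfix⟩ := h
  have : FiniteDimensional ℚ E := hE
  let res : GQ → (E →ₐ[ℚ] Qb) := fun σ => (σ : Qb →ₐ[ℚ] Qb).comp E.val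
  let g : (E →ₐ[ℚ] Qb) → W := fun φ => if h : ∃ σ, res σ = φ then G h.choose v else 0
  have hg : ∀ σ, G σ v = g (res σ) := by
    intro σ
    have hex : ∃ σ', res σ' = res σ := ⟨σ, rfl⟩
    have hch : res hex.choose = res σ := hex.choose_spec
    show G σ v = dite _ _ _
    rw [dif_pos hex]
    set σ' := hex.choose with hσ'
    have hfix' : Fixes E (σ⁻¹ * σ') := by
      intro a ha
      have h1 : res σ' ⟨a, ha⟩ = res σ ⟨a, ha⟩ := by rw [hch]
      have h2 : σ' a = σ a := h1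
      show σ⁻¹ (σ' a) = a
      rw [h2]
      exact σ.symm_apply_apply a
    have h3 := hfix (σ⁻¹ * σ') hfix'
    calc G σ v = G σ (G (σ⁻¹ * σ') v) := by rw [h3]
      _ = (G σ * G (σ⁻¹ * σ')) v := rfl
      _ = G σ' v := by rw [← map_mul, mul_inv_cancel_left]
  refine (Set.finite_range g).subset ?_
  rintro _ ⟨σ, rfl⟩
  exact ⟨res σ, (hg σ).symm⟩

/-- The orbit span of `v`. -/
noncomputable def orbitSpan (v : k0 ⊗[ZMod p] M.K) : Submodule k0 (k0 ⊗[ZMod p] M.K) :=
  Submodule.span k0 (Set.range fun σ : GQ => M.galB k0 σ v)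

theorem mem_orbitSpan_self (v : k0 ⊗[ZMod p] M.K) : v ∈ M.orbitSpan k0 v :=
  Submodule.subset_span ⟨1, by
    show M.galB k0 1 v = v
    rw [map_one]; rfl⟩

theorem galB_mem_orbitSpan (v : k0 ⊗[ZMod p] M.K) (τ : GQ) {w : k0 ⊗[ZMod p] M.K}
    (hw : w ∈ M.orbitSpan k0 v) : M.galB k0 τ w ∈ M.orbitSpan k0 v := by
  have h : (M.orbitSpan k0 v).map (M.galB k0 τ) ≤ M.orbitSpan k0 v := by
    rw [orbitSpan, Submodule.map_span, Submodule.span_le]
    rintro _ ⟨_, ⟨σ, rfl⟩, rfl⟩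
    refine Submodule.subset_span ⟨τ * σ, ?_⟩
    show M.galB k0 (τ * σ) v = M.galB k0 τ (M.galB k0 σ v)
    rw [map_mul]
    rfl
  exact h (Submodule.mem_map_of_mem hw)

/-- The representation on the orbit span. -/
noncomputable def orbitRep (v : k0 ⊗[ZMod p] M.K) : GQ →* Module.End k0 (M.orbitSpan k0 v) where
  toFun σ := (M.galB k0 σ).restrict fun _ hw => M.galB_mem_orbitSpan k0 v σ hw
  map_one' := by
    ext w
    show M.galB k0 1 (w : k0 ⊗[ZMod p] M.K) = w
    rw [map_one]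
    rfl
  map_mul' σ τ := by
    ext w
    show M.galB k0 (σ * τ) (w : k0 ⊗[ZMod p] M.K) = M.galB k0 σ (M.galB k0 τ w)
    rw [map_mul]
    rfl

theorem coe_orbitRep_apply (v : k0 ⊗[ZMod p] M.K) (σ : GQ) (w : M.orbitSpan k0 v) :
    ((M.orbitRep k0 v σ w : M.orbitSpan k0 v) : k0 ⊗[ZMod p] M.K) = M.galB k0 σ w := rfl

/-- The base-changed Hecke operator acts on the orbit span of an eigenvector by the eigenvalue. -/
theorem baseChange_T_eq_smul (v : k0 ⊗[ZMod p] M.K) (ℓ : ℕ) (c : k0)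
    (hv : (M.T ℓ).baseChange k0 v = c • v) {w : k0 ⊗[ZMod p] M.K}
    (hw : w ∈ M.orbitSpan k0 v) : (M.T ℓ).baseChange k0 w = c • w := by
  induction hw using Submodule.span_induction with
  | mem w hw =>
    obtain ⟨σ, rfl⟩ := hw
    have hcomm : (M.T ℓ).baseChange k0 * M.galB k0 σ = M.galB k0 σ * (M.T ℓ).baseChange k0 := by
      rw [galB_apply, ← LinearMap.baseChange_mul, ← LinearMap.baseChange_mul, M.T_comm_gal]
    show ((M.T ℓ).baseChange k0 * M.galB k0 σ) v = c • M.galB k0 σ v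
    rw [hcomm]
    show M.galB k0 σ ((M.T ℓ).baseChange k0 v) = c • M.galB k0 σ v
    rw [hv, map_smul]
  | zero => rw [map_zero, smul_zero]
  | add w₁ w₂ _ _ h₁ h₂ => rw [map_add, h₁, h₂, smul_add]
  | smul b w _ h => rw [map_smul, h, smul_comm]

/-- The Eichler–Shimura relation, base-changed to `k0 ⊗ K`. -/
theorem frobB (ℓ : ℕ) (hℓ : ℓ.Prime) (hℓNp : ¬ ℓ ∣ N * p) (A : ValuationSubring Qb)
    (hA : A.LiesOverPrime ℓ) (τ : GQ) (hτ : A.IsFrobeniusAt τ ℓ) (w : k0 ⊗[ZMod p] M.K) :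
    M.galB k0 τ (M.galB k0 τ w) - (M.T ℓ).baseChange k0 (M.galB k0 τ w) + (ℓ : k0) • w = 0 := by
  have h := M.frob ℓ hℓ hℓNp A hA τ hτ
  have h2 := congrArg (fun f => (LinearMap.baseChange k0 f : Module.End k0 (k0 ⊗[ZMod p] M.K))) h
  simp only [LinearMap.baseChange_add, LinearMap.baseChange_sub, LinearMap.baseChange_mul,
    LinearMap.baseChange_smul, LinearMap.baseChange_zero, LinearMap.baseChange_one] at h2
  have h3 := LinearMap.congr_fun h2 w
  simp only [LinearMap.add_apply, LinearMap.sub_apply, Module.End.mul_apply, LinearMap.smul_apply,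
    Module.End.one_apply, LinearMap.zero_apply] at h3
  rw [← h3, galB_apply]
  congr 1
  rw [← algebraMap_smul k0 ((ℓ : ZMod p)) w, map_natCast]

/-- **(ESM) from a Kummer model with an eigenvector.** -/
theorem hasESModule (a : ℕ → k0) (h : M.HasEigen k0 a) : HasESModule N p k0 a := by
  obtain ⟨v, hv0, hv⟩ := h
  have hfinite : (Set.range fun σ : GQ => M.galB k0 σ v).Finite :=
    finite_orbit k0 (M.galB k0) v (M.hasLevel_galB k0 v)
  have hfin : Module.Finite k0 (M.orbitSpan k0 v) := FiniteDimensional.span_of_finite k0 hfinite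
  refine ⟨M.orbitSpan k0 v, inferInstance, inferInstance, M.orbitRep k0 v, hfin, ?_, ?_, ?_, ?_⟩
  · exact ⟨⟨⟨v, M.mem_orbitSpan_self k0 v⟩, 0, fun h0 => hv0 (congrArg Subtype.val h0)⟩⟩
  · refine factorsThroughFiniteLevel_of_pointwise (M.orbitRep k0 v) fun w => ?_
    refine (M.hasLevel_galB k0 (w : k0 ⊗[ZMod p] M.K)).mono fun σ hσ => ?_
    exact Subtype.ext hσ
  · intro ℓ hℓ hℓNp A hA σ hσ
    ext w
    rw [coe_orbitRep_apply, galB_apply, M.inertia ℓ hℓ hℓNp A hA σ hσ, LinearMap.baseChange_one]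
    rfl
  · intro ℓ hℓ hℓNp A hA τ hτ
    ext w
    have h1 := M.frobB k0 ℓ hℓ hℓNp A hA τ hτ (w : k0 ⊗[ZMod p] M.K)
    rw [M.baseChange_T_eq_smul k0 v ℓ (a ℓ) (hv ℓ hℓ hℓNp)
      (M.galB_mem_orbitSpan k0 v τ w.2)] at h1
    exact h1

end KumModel

end Fermat.Agent.GJ.J4Asm
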