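/-
GATE-J / J4-EIGSYS (helper22): from a normalised eigenform `g` and a residue map
`φ : ℤ̄ → k` to the mod-`p` eigensystem `θ : 𝕋 → k0` (`k0` a finite field) consumed by the
interface (EIG):

* `heckeTLin_eq_smul`, `heckeULin_eq_smul` : a normalised eigenform (in the prelude's
  `q`-coefficient sense) is an eigenvector of all `T_ℓ`, `U_q` with eigenvalue `a_ℓ(g)`;
* `eigenChar` : the eigencharacter `𝕋 →+* ℂ`, with integral values (`S22`);
* `exists_eigensystem` : the finite residue eigensystem.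
-/
import Mathlib
import Fermat.Prelude.Def_FLTPrelim_Modularity
import Fermat.Prelude.Def_CuspForm_HeckeAlgebra
import Fermat.Agent.S49_helper65.Eigenform
import Fermat.Agent.S22

set_option autoImplicit false
set_option linter.unusedSectionVars false

namespace Fermat.Agent.GJ.EigSys

open CongruenceSubgroup ModularFormClass UpperHalfPlane FormalHecke
open Fermat.Agent.S49_helper65

section Formal

variable {R : Type*} [CommRing R]

/-- The recursive (multiplicative) form of the Hecke relations implies the eigensystem form. -/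
theorem isEigensystem_of_isRecursive {e a : ℕ → R} (h : IsRecursive e a) (h0 : a 0 = 0) :
    IsEigensystem e a := by
  obtain ⟨h1, hmul, hrec⟩ := h
  refine ⟨h1, fun ℓ hℓ n => ?_⟩
  rcases Nat.eq_zero_or_pos n with rfl | hn
  · simp [h0]
  obtain ⟨r, m, hm, rfl⟩ := Nat.exists_eq_pow_mul_and_not_dvd hn.ne' ℓ hℓ.ne_one
  have hcop : ∀ j, Nat.Coprime (ℓ ^ j) m := fun j =>
    Nat.Coprime.pow_left j ((Nat.Prime.coprime_iff_not_dvd hℓ).mpr hm)
  cases r with
  | zero =>
    rw [pow_zero, one_mul, if_neg hm, mul_zero, add_zero]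
    exact hmul ℓ m (by simpa using hcop 1)
  | succ s =>
    have hd : ℓ ∣ ℓ ^ (s + 1) * m :=
      Dvd.dvd.mul_right (dvd_pow_self ℓ (Nat.succ_ne_zero s)) m
    rw [if_pos hd]
    have e1 : ℓ * (ℓ ^ (s + 1) * m) = ℓ ^ (s + 2) * m := by ring
    have e2 : ℓ ^ (s + 1) * m / ℓ = ℓ ^ s * m := by
      rw [pow_succ, mul_right_comm, Nat.mul_div_cancel _ hℓ.pos]
    rw [e1, e2, hmul _ _ (hcop (s + 2)), hmul _ _ (hcop (s + 1)), hmul _ _ (hcop s), hrec ℓ s hℓ]
    ring

end Formal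

section Cusp

variable {N : ℕ}

theorem qCoeff_sub_cusp (f₁ f₂ : CuspForm (Gamma0 N) 2) (n : ℕ) :
    qCoeff (f₁ - f₂ : CuspForm (Gamma0 N) 2) n = qCoeff f₁ n - qCoeff f₂ n := by
  unfold qCoeff
  have h1 : (⇑(f₁ - f₂ : CuspForm (Gamma0 N) 2) : ℍ → ℂ) = ⇑f₁ - ⇑f₂ := rfl
  rw [h1, ModularForm.qExpansion_sub one_pos (one_mem_strictPeriods_Gamma0 N) f₁ f₂]
  simp

theorem cusp_ext_of_qCoeff (f₁ f₂ : CuspForm (Gamma0 N) 2)
    (h : ∀ n, qCoeff f₁ n = qCoeff f₂ n) : f₁ = f₂ :=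
  sub_eq_zero.mp (cusp_eq_zero_of_qCoeff (f₁ - f₂) fun n => by
    rw [qCoeff_sub_cusp, h n, sub_self])

variable [NeZero N] {g : CuspForm (Gamma0 N) 2}

theorem isRecursive_of_isNormalizedEigenform (hg : g.IsNormalizedEigenform) :
    IsRecursive (levelChar N) (fun n => qCoeff g n) := by
  refine ⟨hg.qCoeff_one, hg.qCoeff_mul_of_coprime, fun ℓ r hℓ => ?_⟩
  by_cases hℓN : ℓ ∣ N
  · simp only [levelChar, if_pos hℓN, zero_mul, sub_zero]
    exact hg.qCoeff_prime_pow_of_dvd ℓ r hℓ hℓN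
  · simp only [levelChar, if_neg hℓN]
    exact hg.qCoeff_prime_pow_of_not_dvd ℓ r hℓ hℓN

theorem isEigensystem_of_isNormalizedEigenform (hg : g.IsNormalizedEigenform) :
    IsEigensystem (levelChar N) (fun n => qCoeff g n) :=
  isEigensystem_of_isRecursive (isRecursive_of_isNormalizedEigenform hg) (qCoeff_zero_cusp g)

/-- A normalised eigenform is an eigenvector of `T_ℓ` with eigenvalue `a_ℓ`. -/
theorem heckeTLin_eq_smul (hg : g.IsNormalizedEigenform) {ℓ : ℕ} (hℓ : ℓ.Prime)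
    (hℓN : ¬ ℓ ∣ N) : CuspForm.heckeTLin 2 hℓ hℓN g = qCoeff g ℓ • g := by
  refine cusp_ext_of_qCoeff _ _ fun n => ?_
  rw [qCoeff_heckeTLin, qCoeff_smul_cusp]
  have := (isEigensystem_of_isNormalizedEigenform hg).2 ℓ hℓ n
  simp only [levelChar, if_neg hℓN] at this
  rw [← this, mul_comm n ℓ]
  split_ifs <;> ring

/-- A normalised eigenform is an eigenvector of `U_q` with eigenvalue `a_q`. -/
theorem heckeULin_eq_smul (hg : g.IsNormalizedEigenform) {q : ℕ} (hq : q.Prime)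
    (hqN : q ∣ N) : CuspForm.heckeULin 2 hqN g = qCoeff g q • g := by
  refine cusp_ext_of_qCoeff _ _ fun n => ?_
  rw [qCoeff_heckeULin g hq hqN, qCoeff_smul_cusp]
  have := (isEigensystem_of_isNormalizedEigenform hg).2 q hq n
  simp only [levelChar, if_pos hqN, zero_mul, add_zero] at this
  rw [← this, mul_comm n q]

end Cusp

section EigenChar

open CuspForm

variable {N : ℕ} [NeZero N] {g : CuspForm (Gamma0 N) 2}

/-- The operators having `g` as an eigenvector form a `ℤ`-subalgebra. -/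
def eigenAlg (g : CuspForm (Gamma0 N) 2) :
    Subalgebra ℤ (Module.End ℂ (CuspForm (Gamma0 N) 2)) where
  carrier := {T | ∃ c : ℂ, T g = c • g}
  mul_mem' := by
    rintro T T' ⟨c, hc⟩ ⟨c', hc'⟩
    exact ⟨c' * c, by rw [Module.End.mul_apply, hc', map_smul, hc, smul_smul]⟩
  add_mem' := by
    rintro T T' ⟨c, hc⟩ ⟨c', hc'⟩
    exact ⟨c + c', by rw [LinearMap.add_apply, hc, hc', add_smul]⟩
  algebraMap_mem' := by
    intro n
    refine ⟨(n : ℂ), ?_⟩
    rw [Algebra.algebraMap_eq_smul_one, LinearMap.smul_apply, Module.End.one_apply]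
    exact (Int.cast_smul_eq_zsmul ℂ n g).symm

theorem heckeAlgebra_le_eigenAlg (hg : g.IsNormalizedEigenform) (S : Set ℕ) :
    heckeAlgebra N 2 S ≤ eigenAlg g := by
  refine Algebra.adjoin_le ?_
  rintro T (⟨ℓ, hℓ, hℓN, -, rfl⟩ | ⟨q, hqN, hq, -, rfl⟩)
  · exact ⟨_, heckeTLin_eq_smul hg hℓ hℓN⟩
  · exact ⟨_, heckeULin_eq_smul hg hq hqN⟩

theorem smul_cusp_injective (hg : g.IsNormalizedEigenform) {c c' : ℂ} (h : c • g = c' • g) :
    c = c' := by
  have h1 : qCoeff (c • g : CuspForm (Gamma0 N) 2) 1 = qCoeff (c' • g : CuspForm (Gamma0 N) 2) 1 := by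
    rw [h]
  rwa [qCoeff_smul_cusp, qCoeff_smul_cusp, hg.qCoeff_one, mul_one, mul_one] at h1

/-- The eigenvalue of `T ∈ 𝕋` on `g`, as a function. -/
noncomputable def eigenVal (g : CuspForm (Gamma0 N) 2) (S : Set ℕ) (T : heckeAlgebra N 2 S) : ℂ :=
  qCoeff ((T : Module.End ℂ (CuspForm (Gamma0 N) 2)) g) 1

theorem eigenVal_spec (hg : g.IsNormalizedEigenform) (S : Set ℕ) (T : heckeAlgebra N 2 S) :
    (T : Module.End ℂ (CuspForm (Gamma0 N) 2)) g = eigenVal g S T • g := by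
  obtain ⟨c, hc⟩ := heckeAlgebra_le_eigenAlg hg S T.2
  rw [eigenVal, hc, qCoeff_smul_cusp, hg.qCoeff_one, mul_one]

theorem eigenVal_eq_of_apply_eq (hg : g.IsNormalizedEigenform) (S : Set ℕ)
    (T : heckeAlgebra N 2 S) {c : ℂ}
    (h : (T : Module.End ℂ (CuspForm (Gamma0 N) 2)) g = c • g) : eigenVal g S T = c :=
  smul_cusp_injective hg ((eigenVal_spec hg S T).symm.trans h)

/-- The eigencharacter of a normalised eigenform. -/
noncomputable def eigenChar (hg : g.IsNormalizedEigenform) (S : Set ℕ) :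
    heckeAlgebra N 2 S →+* ℂ where
  toFun := eigenVal g S
  map_one' := eigenVal_eq_of_apply_eq hg S 1 (by
    rw [OneMemClass.coe_one, Module.End.one_apply, one_smul])
  map_mul' T T' := eigenVal_eq_of_apply_eq hg S (T * T') (by
    rw [MulMemClass.coe_mul, Module.End.mul_apply, eigenVal_spec hg S T', map_smul,
      eigenVal_spec hg S T, smul_smul, mul_comm])
  map_zero' := eigenVal_eq_of_apply_eq hg S 0 (by
    rw [ZeroMemClass.coe_zero, LinearMap.zero_apply, zero_smul])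
  map_add' T T' := eigenVal_eq_of_apply_eq hg S (T + T') (by
    rw [AddMemClass.coe_add, LinearMap.add_apply, eigenVal_spec hg S T, eigenVal_spec hg S T',
      add_smul])

theorem eigenChar_spec (hg : g.IsNormalizedEigenform) (S : Set ℕ) (T : heckeAlgebra N 2 S) :
    (T : Module.End ℂ (CuspForm (Gamma0 N) 2)) g = eigenChar hg S T • g :=
  eigenVal_spec hg S T

theorem eigenChar_T (hg : g.IsNormalizedEigenform) (S : Set ℕ) {ℓ : ℕ} (hℓ : ℓ.Prime)
    (hℓN : ¬ ℓ ∣ N) (hℓS : ℓ ∉ S) :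
    eigenChar hg S (heckeAlgebra.T hℓ hℓN hℓS) = qCoeff g ℓ :=
  eigenVal_eq_of_apply_eq hg S _ (by rw [heckeAlgebra.coe_T]; exact heckeTLin_eq_smul hg hℓ hℓN)

theorem eigenChar_U (hg : g.IsNormalizedEigenform) (S : Set ℕ) {q : ℕ} (hq : q.Prime)
    (hqN : q ∣ N) (hqS : q ∉ S) :
    eigenChar hg S (heckeAlgebra.U hq hqN hqS) = qCoeff g q :=
  eigenVal_eq_of_apply_eq hg S _ (by rw [heckeAlgebra.coe_U]; exact heckeULin_eq_smul hg hq hqN)

/-- Eigenvalues are algebraic integers (`S22`). -/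
theorem eigenChar_isIntegral (hg : g.IsNormalizedEigenform) (S : Set ℕ)
    (T : heckeAlgebra N 2 S) : IsIntegral ℤ (eigenChar hg S T) := by
  have : Module.Finite ℤ (heckeAlgebra N 2 S) := Fermat.Agent.S22.result N 2 S
  exact map_isIntegral_int (eigenChar hg S) (IsIntegral.of_finite ℤ T)

/-- The eigencharacter with values in `ℤ̄`. -/
noncomputable def eigenCharInt (hg : g.IsNormalizedEigenform) (S : Set ℕ) :
    heckeAlgebra N 2 S →+* integralClosure ℤ ℂ :=
  (eigenChar hg S).codRestrict (integralClosure ℤ ℂ) (eigenChar_isIntegral hg S)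

theorem coe_eigenCharInt (hg : g.IsNormalizedEigenform) (S : Set ℕ) (T : heckeAlgebra N 2 S) :
    ((eigenCharInt hg S T : integralClosure ℤ ℂ) : ℂ) = eigenChar hg S T := rfl

/-- The Hecke eigenvalues `a_ℓ(g)`, `ℓ ∤ N`, are algebraic integers. -/
theorem exists_integral_qCoeff (hg : g.IsNormalizedEigenform) {ℓ : ℕ} (hℓ : ℓ.Prime)
    (hℓN : ¬ ℓ ∣ N) : ∃ α : integralClosure ℤ ℂ, (α : ℂ) = qCoeff g ℓ :=
  ⟨eigenCharInt hg ∅ (heckeAlgebra.T hℓ hℓN (Set.notMem_empty ℓ)),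
    by rw [coe_eigenCharInt, eigenChar_T]⟩

end EigenChar

section Residue

open CuspForm

variable {N : ℕ} [NeZero N] {g : CuspForm (Gamma0 N) 2}

/-- A ring homomorphism from a finitely generated `ℤ`-module ring to a field of characteristic
`p` factors through a finite field. -/
theorem exists_finite_field_factor {T : Type} [CommRing T] [Module.Finite ℤ T] {p : ℕ}
    (hp : p.Prime) {k : Type} [Field k] [CharP k p] (ψ : T →+* k) :
    ∃ (k0 : Type) (_ : Field k0) (_ : Finite k0) (_ : CharP k0 p) (ι : k0 →+* k)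
      (θ : T →+* k0), ∀ t : T, ι (θ t) = ψ t := by
  have hprime : (RingHom.ker ψ).IsPrime := RingHom.ker_isPrime ψ
  have hfin : Module.Finite ℤ (T ⧸ RingHom.ker ψ) :=
    Module.Finite.of_surjective (Ideal.Quotient.mkₐ ℤ (RingHom.ker ψ)).toLinearMap
      Ideal.Quotient.mk_surjective
  have htors : Module.IsTorsion ℤ (T ⧸ RingHom.ker ψ) := by
    intro x
    refine ⟨⟨(p : ℤ), mem_nonZeroDivisors_of_ne_zero (by exact_mod_cast hp.ne_zero)⟩, ?_⟩
    obtain ⟨t, rfl⟩ := Ideal.Quotient.mk_surjective x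
    show (p : ℤ) • (Ideal.Quotient.mk (RingHom.ker ψ) t) = 0
    rw [← map_zsmul, Ideal.Quotient.eq_zero_iff_mem, RingHom.mem_ker, map_zsmul, zsmul_eq_mul,
      Int.cast_natCast, CharP.cast_eq_zero, zero_mul]
  have hFinite : Finite (T ⧸ RingHom.ker ψ) := Module.finite_of_fg_torsion _ htors
  have hmax : (RingHom.ker ψ).IsMaximal :=
    Ideal.Quotient.maximal_of_isField _ (Finite.isField_of_domain _)
  let _ : Field (T ⧸ RingHom.ker ψ) := Ideal.Quotient.field (RingHom.ker ψ)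
  have hchar : CharP (T ⧸ RingHom.ker ψ) p :=
    RingHom.charP (RingHom.kerLift ψ) (RingHom.kerLift_injective ψ) p
  exact ⟨T ⧸ RingHom.ker ψ, inferInstance, hFinite, hchar, RingHom.kerLift ψ,
    Ideal.Quotient.mk (RingHom.ker ψ), fun t => RingHom.kerLift_mk ψ t⟩

/-- **The mod-`p` eigensystem of a normalised eigenform** (input of the interface (EIG)). -/
theorem exists_eigensystem (hg : g.IsNormalizedEigenform) {p : ℕ} (hp : p.Prime) {k : Type}
    [Field k] [CharP k p] (φ : integralClosure ℤ ℂ →+* k) (S : Set ℕ) :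
    ∃ (k0 : Type) (_ : Field k0) (_ : Finite k0) (_ : CharP k0 p) (ι : k0 →+* k)
      (θ : heckeAlgebra N 2 S →+* k0),
      ∀ (ℓ : ℕ) (hℓ : ℓ.Prime) (hℓN : ¬ ℓ ∣ N) (hℓS : ℓ ∉ S),
        ∃ α : integralClosure ℤ ℂ, (α : ℂ) = qCoeff g ℓ ∧
          φ α = ι (θ (heckeAlgebra.T hℓ hℓN hℓS)) := by
  have : Module.Finite ℤ (heckeAlgebra N 2 S) := Fermat.Agent.S22.result N 2 S
  obtain ⟨k0, i1, i2, i3, ι, θ, h⟩ :=
    exists_finite_field_factor hp (φ.comp (eigenCharInt hg S))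
  refine ⟨k0, i1, i2, i3, ι, θ, fun ℓ hℓ hℓN hℓS => ?_⟩
  refine ⟨eigenCharInt hg S (heckeAlgebra.T hℓ hℓN hℓS), ?_, ?_⟩
  · rw [coe_eigenCharInt, eigenChar_T]
  · rw [h, RingHom.comp_apply]

end Residue

end Fermat.Agent.GJ.EigSys
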