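/-
GATE-J / J4 final wiring (helper22): the frozen S29 statement from exactly two named inputs

* `ALG`  : `∀ finite fields k0, J4Asm.RepTwoStmt k0`   (J4-ALG, helper85/helper27);
* `KUM`  : for all `N ≠ 0` and primes `p` a Kummer model `M : J4Asm.KumModel N p` (J3: (ES)) in
           which every mod-`p` eigensystem `θ` of the Hecke algebra has an eigenvector (J2: (EIG)).

Everything else is plugged in: Frobenius' theorem (`FrobLift.frobGenQ`), the cyclotomic character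
(`CycChar.hasCycChar`), the eigensystem of `(g, φ)` (`EigSys.exists_eigensystem`), the orbit-span
module (`KumModel.hasESModule`) and `J4Asm.s29_of_core`.
-/
import Mathlib
import Fermat.Agent.GJ.J4.S29Asm
import Fermat.Agent.GJ.J4.ESModule
import Fermat.Agent.GJ.J4.EigSys
import Fermat.Agent.GJ.FrobLiftMain
import Fermat.Agent.GJ.CycCharInst

set_option autoImplicit false

open CuspForm

namespace Fermat.Agent.GJ.S29Final

/-- The set of bad primes used for the Hecke algebra. -/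
def badSet (N : ℕ) : Set ℕ := {ℓ | ℓ ∣ N}

/-- The eigenvalue function `ℓ ↦ θ (T_ℓ)` (junk `0` unless `ℓ` is a prime not dividing `N`). -/
noncomputable def aOf {N : ℕ} [NeZero N] {k0 : Type} [Field k0]
    (θ : heckeAlgebra N 2 (badSet N) →+* k0) (ℓ : ℕ) : k0 := by
  classical
  exact if h : ℓ.Prime ∧ ¬ ℓ ∣ N then θ (heckeAlgebra.T h.1 h.2 h.2) else 0

theorem aOf_eq {N : ℕ} [NeZero N] {k0 : Type} [Field k0]
    (θ : heckeAlgebra N 2 (badSet N) →+* k0) {ℓ : ℕ} (hℓ : ℓ.Prime) (hℓN : ¬ ℓ ∣ N) :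
    aOf θ ℓ = θ (heckeAlgebra.T hℓ hℓN hℓN) := by
  classical
  unfold aOf
  rw [dif_pos ⟨hℓ, hℓN⟩]

/-- Input (ALG). -/
def ALG : Prop := ∀ (k0 : Type) [Field k0] [Finite k0], J4Asm.RepTwoStmt k0

/-- Input (KUM) = (ES) + (EIG) on a common Kummer model. -/
def KUM : Prop :=
  ∀ (N : ℕ) [NeZero N] (p : ℕ) [Fact p.Prime], ∃ M : J4Asm.KumModel N p,
    ∀ (k0 : Type) [Field k0] [Finite k0] [Algebra (ZMod p) k0]
      (θ : heckeAlgebra N 2 (badSet N) →+* k0), M.HasEigen k0 (aOf θ)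

/-- **S29 from (ALG) and (KUM).** -/
theorem s29_of_alg_kum (hALG : ALG) (hKUM : KUM)
    {N : ℕ} {g : CuspForm (CongruenceSubgroup.Gamma0 N) 2} (hg : g.IsNormalizedEigenform)
    {p : ℕ} (hp : p.Prime) {k : Type} [Field k] [CharP k p]
    (φ : integralClosure ℤ ℂ →+* k) :
    ∃ ρ : ResidualGaloisRep k, ρ.IsAttachedTo g φ ∧
      ∀ ℓ : ℕ, ℓ.Prime → ¬ ℓ ∣ N * p → ρ.IsUnramifiedAt ℓ := by
  refine J4Asm.s29_of_core FrobLift.frobGenQ hp φ fun hN => ?_
  have : NeZero N := ⟨hN⟩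
  have : Fact p.Prime := ⟨hp⟩
  obtain ⟨k0, i1, i2, i3, ι, θ, hθ⟩ := EigSys.exists_eigensystem hg hp φ (badSet N)
  let _ : Algebra (ZMod p) k0 := ZMod.algebra k0 p
  obtain ⟨M, hM⟩ := hKUM N p
  refine ⟨k0, i1, ι, aOf θ, hALG k0, CycChar.hasCycChar p k0,
    M.hasESModule k0 (aOf θ) (hM k0 θ), fun ℓ hℓ hℓN => ?_⟩
  obtain ⟨α, hα, hφ⟩ := hθ ℓ hℓ hℓN hℓN
  exact ⟨α, hα, by rw [hφ, aOf_eq θ hℓ hℓN]⟩

end Fermat.Agent.GJ.S29Final
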