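/-
GATE-J / J4 (helper31): the last glue of the S29/S42 path.

`kum_of_k18s_eig` : J1's clause-free Kummer statement (K18s) at every level `N ≥ 1`, every prime
`ℓ ∤ N p`, every place `A` over `ℓ`, together with J2's interface `KumGroup.EIG N p`, gives
helper22's input `S29Final.KUM`; hence (`s29_of_k18s_eig`) the frozen statement of S29.

Plugged in: (HN) helper43 `HN.hnMem`/`HN.hnDiv`, (ES) helper44 `Kum.es_of_k18s`, (KUMTYPE) helper42
`KumType.kumModel`, the adapter helper29 `EigAdapter.hasEigen_of_EIG`, (ALG) helper85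
`Alg.repTwoStmt_of_finite`, and helper22's `S29Final.s29_of_alg_kum`.
-/
import Mathlib
import Fermat.Agent.GJ.J4.S29Final
import Fermat.Agent.GJ.Kum.KumType
import Fermat.Agent.GJ.Kum.EigAdapter
import Fermat.Agent.GJ.Kum.ESFinal
import Fermat.Agent.GJ.HN.Bridge
import Fermat.Agent.GJ.Alg.RepTwoStmt
import Fermat.Agent.GJ.S18.K18Strong

set_option autoImplicit false
set_option linter.style.haveILetI false

open CuspForm

namespace Fermat.Agent.GJ.KumFinal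

open Fermat.Agent.GJ.KumGroup Fermat.Agent.GJ.Kum.KumType Fermat.Agent.GJ.J4Asm
open Fermat.Agent.GJ.S18.Front (K18s)

/-- `ℚ̄`. -/
local notation "Qb" => AlgebraicClosure ℚ

/-- J1's export: the clause-free Kummer statement at every level, prime and place. -/
def K18sAll : Prop :=
  ∀ (N : ℕ) [NeZero N] (p ℓ : ℕ), p.Prime → ℓ.Prime → ¬ ℓ ∣ N * p →
    ∀ A : ValuationSubring Qb, A.LiesOverPrime ℓ → K18s A (IsLocalRing.residue A) N p

/-- J2's export at every level and prime. -/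
def EIGAll : Prop := ∀ (N : ℕ) [NeZero N] (p : ℕ), p.Prime → KumGroup.EIG N p

section Converters

variable (N : ℕ) [NeZero N]

theorem hnMemHyp {ℓ : ℕ} (hℓ : ℓ.Prime) (hℓN : ¬ ℓ ∣ N) : HNMemHyp N ℓ := by
  intro _ u hu
  exact HN.hnMem N ℓ hℓ hℓN u hu

theorem hnDivHyp (p : ℕ) {ℓ : ℕ} (hℓ : ℓ.Prime) (hℓN : ¬ ℓ ∣ N) : HNDivHyp N p ℓ := by
  intro _ u x hu hx hdiv
  exact HN.hnDiv N ℓ hℓ hℓN p u x hu hx hdiv

theorem es_hyps (hK : K18sAll) {p : ℕ} (hp : p.Prime) {ℓ : ℕ} (hℓ : ℓ.Prime)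
    (hℓNp : ¬ ℓ ∣ N * p) : ESInertiaHyp N p ℓ ∧ ESFrobHyp N p ℓ := by
  haveI : Fact ℓ.Prime := ⟨hℓ⟩
  haveI : NeZero ℓ := ⟨hℓ.ne_zero⟩
  have hℓN : ¬ ℓ ∣ N := fun h => hℓNp (Dvd.dvd.mul_right h p)
  have h := Kum.es_of_k18s (N := N) (p := p) (ℓ := ℓ) hp.pos
    (fun A hA => hK N p ℓ hp hℓ hℓNp A hA)
    (fun u hu => HN.hnMem N ℓ hℓ hℓN u hu)
    (fun u x hu hx hdiv => HN.hnDiv N ℓ hℓ hℓN p u x hu hx hdiv)
  refine ⟨h.1, ?_⟩
  intro _ A hA s hs u hu hdiv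
  exact h.2 A hA s hs u hu hdiv

end Converters

/-- **(KUM) from (K18s) and (EIG).** -/
theorem kum_of_k18s_eig (hK : K18sAll) (hE : EIGAll) : S29Final.KUM := by
  intro N _ p hpf
  have hp : p.Prime := hpf.out
  refine ⟨kumModel N p (fun ℓ hℓ hℓN => hnMemHyp N hℓ hℓN) (fun ℓ hℓ hℓN => hnDivHyp N p hℓ hℓN)
    (fun ℓ hℓ hℓNp => (es_hyps N hK hp hℓ hℓNp).1)
    (fun ℓ hℓ hℓNp => (es_hyps N hK hp hℓ hℓNp).2), fun k0 _ _ _ θ => ?_⟩
  exact Kum.EigAdapter.hasEigen_of_EIG _ (AddEquiv.refl _)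
    (fun ℓ hℓ hℓN u u' h => kumModel_T_cls_of_eq _ _ _ _ hℓ hℓN u u' h) (hE N p hp) k0 θ

/-- **The frozen S29 statement from (K18s) and (EIG).** -/
theorem s29_of_k18s_eig (hK : K18sAll) (hE : EIGAll)
    {N : ℕ} {g : CuspForm (CongruenceSubgroup.Gamma0 N) 2} (hg : g.IsNormalizedEigenform)
    {p : ℕ} (hp : p.Prime) {k : Type} [Field k] [CharP k p]
    (φ : integralClosure ℤ ℂ →+* k) :
    ∃ ρ : ResidualGaloisRep k, ρ.IsAttachedTo g φ ∧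
      ∀ ℓ : ℕ, ℓ.Prime → ¬ ℓ ∣ N * p → ρ.IsUnramifiedAt ℓ :=
  S29Final.s29_of_alg_kum (fun k0 _ _ => Alg.repTwoStmt_of_finite k0) (kum_of_k18s_eig hK hE)
    hg hp φ

end Fermat.Agent.GJ.KumFinal
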