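/-
GATE-J / J4 final wiring (helper22): the frozen S29 statement from the single remaining input
`S29Final.KUM` (J3 (ES) + J2 (EIG) on a common Kummer model); (ALG) is discharged by
`Alg.repTwoStmt_of_finite` (helper85).
-/
import Mathlib
import Fermat.Agent.GJ.J4.S29Final
import Fermat.Agent.GJ.Alg.RepTwoStmt

set_option autoImplicit false

namespace Fermat.Agent.GJ.S29Final

theorem alg : ALG := fun k0 _ _ => Alg.repTwoStmt_of_finite k0

/-- **S29 from (KUM) alone.** -/
theorem s29_of_kum (hKUM : KUM)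
    {N : ℕ} {g : CuspForm (CongruenceSubgroup.Gamma0 N) 2} (hg : g.IsNormalizedEigenform)
    {p : ℕ} (hp : p.Prime) {k : Type} [Field k] [CharP k p]
    (φ : integralClosure ℤ ℂ →+* k) :
    ∃ ρ : ResidualGaloisRep k, ρ.IsAttachedTo g φ ∧
      ∀ ℓ : ℕ, ℓ.Prime → ¬ ℓ ∣ N * p → ρ.IsUnramifiedAt ℓ :=
  s29_of_alg_kum alg hKUM hg hp φ

end Fermat.Agent.GJ.S29Final
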