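/-
GATE-J / J4-ASM (helper35): `S42 ⇐ S29`, pure bookkeeping.

`S29Statement` is the frozen statement of S29 verbatim (as a `Prop`).  From it we derive the
prelude property `EigenformResidualAttachmentAt M` of S42 for every Frey package:
`K := ℤ̄ ⧸ 𝔪`, `ψ := mk 𝔪`, `(V, ρ)` from S29, trace/determinant read off the characteristic
polynomial, and the number field `F` is the fixed field of the open normal subgroup
`ker(ρ̄_{E,p}) ⊓ ker ρ` of `G_ℚ` (`E[p]` is finite by the landed S13 division-polynomial theory).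

Final assembly (once `Fermat/Agent/S29.lean` exists), body of `Fermat.Agent.S42.result`:
  `Fermat.Agent.GJ.J4.S42Asm.s42_of_s29 (fun hg _ hp _ _ _ φ => Fermat.Agent.S29.result hg hp φ) P`
-/
import Mathlib
import Fermat.Prelude.Def_GaloisRep_Residual
import Fermat.Prelude.Def_FreyPackage_EigenformResidualAttachment
import Fermat.Agent.S13.DivFinal
import Fermat.Agent.S13.DP.Main
import Fermat.Agent.S13.Assembly
import Fermat.Agent.S13.GL.FixedField

set_option autoImplicit false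

open WeierstrassCurve WeierstrassCurve.Affine WeierstrassCurve.Affine.Point
open Polynomial

namespace Fermat.Agent.GJ.J4.S42Asm

/-- The frozen statement of S29, verbatim. -/
def S29Statement : Prop :=
  ∀ {N : ℕ} {g : CuspForm (CongruenceSubgroup.Gamma0 N) 2} (_ : g.IsNormalizedEigenform)
    {p : ℕ} (_ : p.Prime) {k : Type} [Field k] [CharP k p]
    (φ : integralClosure ℤ ℂ →+* k),
    ∃ ρ : ResidualGaloisRep k, ρ.IsAttachedTo g φ ∧
      ∀ ℓ : ℕ, ℓ.Prime → ¬ ℓ ∣ N * p → ρ.IsUnramifiedAt ℓ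

/-! ### Trace and determinant from the characteristic polynomial in dimension two -/

section Charpoly

variable {k : Type*} [Field k] {V : Type*} [AddCommGroup V] [Module k V]

theorem trace_det_of_charpoly [Module.Finite k V] (h2 : Module.finrank k V = 2)
    (f : Module.End k V) (t d : k)
    (h : LinearMap.charpoly f = X ^ 2 - C t * X + C d) :
    LinearMap.trace k V f = t ∧ LinearMap.det f = d := by
  let b := Module.finBasis k V
  have hcard : Fintype.card (Fin (Module.finrank k V)) = 2 := by rw [Fintype.card_fin, h2]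
  have : Nonempty (Fin (Module.finrank k V)) := by
    rw [h2]; exact ⟨0⟩
  have hM : (LinearMap.toMatrix b b f).charpoly = X ^ 2 - C t * X + C d := by
    rw [LinearMap.charpoly_toMatrix, h]
  constructor
  · rw [LinearMap.trace_eq_matrix_trace k b f, Matrix.trace_eq_neg_charpoly_coeff, hM, hcard]
    simp [coeff_X, coeff_C]
  · rw [← LinearMap.det_toMatrix b f, Matrix.det_eq_sign_charpoly_coeff, hM, hcard]
    simp [coeff_X, coeff_C]

end Charpoly

/-! ### The quotient `ℤ̄ ⧸ 𝔪` has characteristic `p` -/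

theorem charP_quotient {R : Type*} [CommRing R] (𝔪 : Ideal R) [𝔪.IsMaximal] {p : ℕ}
    (hp : p.Prime) (hmem : (p : R) ∈ 𝔪) : CharP (R ⧸ 𝔪) p := by
  letI : Field (R ⧸ 𝔪) := Ideal.Quotient.field 𝔪
  obtain ⟨q, hq⟩ := CharP.exists (R ⧸ 𝔪)
  have h0 : ((p : ℕ) : R ⧸ 𝔪) = 0 := by
    have : (Ideal.Quotient.mk 𝔪) (p : R) = 0 := Ideal.Quotient.eq_zero_iff_mem.mpr hmem
    rwa [map_natCast] at this
  have hdvd : q ∣ p := (CharP.cast_eq_zero_iff (R ⧸ 𝔪) q p).mp h0
  rcases (Nat.dvd_prime hp).mp hdvd with h1 | h1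
  · exfalso
    subst h1
    exact CharP.char_ne_one (R ⧸ 𝔪) 1 rfl
  · subst h1
    exact hq

/-! ### The main reduction -/

open Fermat.Agent.S13 Fermat.Agent.S13.Assembly

theorem s42_of_s29 (h29 : S29Statement) (P : FreyPackage) :
    ∀ M : ℕ, 0 < M → P.EigenformResidualAttachmentAt M := by
  intro M _ g hg 𝔪 h𝔪 hp𝔪
  haveI := h𝔪
  letI : Field (integralClosure ℤ ℂ ⧸ 𝔪) := Ideal.Quotient.field 𝔪
  haveI : CharP (integralClosure ℤ ℂ ⧸ 𝔪) P.p := charP_quotient 𝔪 P.pp hp𝔪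
  obtain ⟨ρ, hatt, -⟩ := h29 hg P.pp (Ideal.Quotient.mk 𝔪)
  -- the Frey side factors through an open subgroup
  have hkey : DPmain.Key (P.freyCurve⁄(AlgebraicClosure ℚ)) P.p :=
    Div.key_main _ (freyCurve_baseChange_Δ_ne_zero P) P.pp (by have := P.hp5; omega)
  haveI : Finite (VV P) := frey_finite_of_key P hkey
  obtain ⟨U, hUopen, hUfix⟩ := exists_open_subgroup_fixing_torsion P.freyCurve P.p
  -- finite level of `ρ`
  obtain ⟨L, hLfin, hL⟩ := ρ.factorsThroughFiniteLevel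
  haveI : FiniteDimensional ℚ L := hLfin
  -- the open normal subgroup `H`
  let H : Subgroup GQ :=
    (galoisRepModuleEnd (S := ℚ) (K := AlgebraicClosure ℚ) P.freyCurve P.p).ker ⊓ ρ.ρ.ker
  have hHn : H.Normal := inferInstance
  have hHopen : IsOpen (H : Set GQ) := by
    refine Subgroup.isOpen_mono (H₁ := U ⊓ L.fixingSubgroup) ?_ ?_
    · intro σ hσ
      rw [Subgroup.mem_inf] at hσ
      refine Subgroup.mem_inf.mpr ⟨?_, ?_⟩
      · rw [MonoidHom.mem_ker]
        ext x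
        exact congrArg Subtype.val (hUfix σ hσ.1 x)
      · rw [MonoidHom.mem_ker]
        refine hL σ fun x hx => ?_
        exact (IntermediateField.mem_fixingSubgroup_iff L σ).mp hσ.2 x hx
    · rw [Subgroup.coe_inf]
      exact hUopen.inter (IntermediateField.fixingSubgroup_isOpen L)
  have hmemH : ∀ σ : GQ, σ ∈ H ↔ ∀ x ∈ IntermediateField.fixedField H, σ x = x :=
    GL.FixedField.mem_iff_forall_fixed H hHopen
  have hnf := GL.FixedField.numberField_fixedField H hHopen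
  have hne : ∀ ℓ : ℕ, ℓ.Prime → ℓ ≠ P.p → ((ℓ : ℕ) : integralClosure ℤ ℂ ⧸ 𝔪) ≠ 0 := by
    intro ℓ hℓ hℓp h0
    have hdvd : P.p ∣ ℓ := (CharP.cast_eq_zero_iff (integralClosure ℤ ℂ ⧸ 𝔪) P.p ℓ).mp h0
    exact hℓp ((Nat.prime_dvd_prime_iff_eq P.pp hℓ).mp hdvd).symm
  have hgal := GL.FixedField.isGalois_fixedField H hHn hHopen
  refine ⟨integralClosure ℤ ℂ ⧸ 𝔪, inferInstance, ZMod.algebra _ P.p, ρ.V, inferInstance,
    inferInstance, ρ.ρ, Ideal.Quotient.mk 𝔪, IntermediateField.fixedField H, inferInstance, hnf,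
    hgal, inferInstance, ?_, ?_, ρ.finrank_eq, ?_, ?_, ?_⟩
  · exact IsScalarTower.of_algebraMap_eq' (Subsingleton.elim _ _)
  · intro x hx
    rw [RingHom.mem_ker]
    exact Ideal.Quotient.eq_zero_iff_mem.mpr hx
  · intro σ hσ
    rw [MonoidHom.mem_ker] at hσ
    show σ ∈ H
    rw [hmemH]
    intro x hx
    have h1 := AlgEquiv.restrictNormal_commutes σ (IntermediateField.fixedField H) ⟨x, hx⟩
    have h2 : AlgEquiv.restrictNormal σ (IntermediateField.fixedField H) ⟨x, hx⟩ = ⟨x, hx⟩ :=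
      DFunLike.congr_fun hσ ⟨x, hx⟩
    rw [h2] at h1
    exact h1.symm
  · intro ℓ hℓ hℓM hℓp A hA τ hτ
    obtain ⟨a, ha, hcp⟩ := hatt ℓ hℓ hℓM (hne ℓ hℓ hℓp) A hA τ hτ
    exact ⟨a, ha, (trace_det_of_charpoly ρ.finrank_eq _ _ _ hcp).1⟩
  · intro ℓ hℓ hℓM hℓp A hA τ hτ
    obtain ⟨a, -, hcp⟩ := hatt ℓ hℓ hℓM (hne ℓ hℓ hℓp) A hA τ hτ
    exact (trace_det_of_charpoly ρ.finrank_eq _ _ _ hcp).2

end Fermat.Agent.GJ.J4.S42Asm
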