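/-
GATE-J / J4 dry run (helper22): the frozen statements S29 and S42 from the single input
`S29Final.KUM`.  Once `KUM` is a theorem `kum : S29Final.KUM`, the final files are

  `Fermat/Agent/S29.lean`:  `theorem result … := Fermat.Agent.GJ.S29Final.s29_of_kum kum hg hp φ`
  `Fermat/Agent/S42.lean`:  `theorem result (P) := Fermat.Agent.GJ.S29Final.s42_of_kum kum P`
-/
import Mathlib
import Fermat.Agent.GJ.J4.S29Kum
import Fermat.Agent.GJ.J4.S42Asm

set_option autoImplicit false

namespace Fermat.Agent.GJ.S29Final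

theorem s29Statement_of_kum (h : KUM) : Fermat.Agent.GJ.J4.S42Asm.S29Statement :=
  fun hg _ hp _ _ _ φ => s29_of_kum h hg hp φ

theorem s42_of_kum (h : KUM) (P : FreyPackage) :
    ∀ M : ℕ, 0 < M → P.EigenformResidualAttachmentAt M :=
  Fermat.Agent.GJ.J4.S42Asm.s42_of_s29 (s29Statement_of_kum h) P

end Fermat.Agent.GJ.S29Final
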