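/-
GATE-J / J4 (helper42): the input `S29Final.KUM` of helper22's final wiring from the TWO remaining
gates, everything else plugged in:

* `K18sGate` (J1) : the clause-free Kummer statement `Front.K18s A (residue A) N p` for all levels
  `N ≠ 0`, primes `p`, primes `ℓ ∤ Np` and valuation subrings `A` of `ℚ̄` over `ℓ`;
* `EIGGate`  (J2) : `KumGroup.EIG N p` for all `N ≠ 0` and primes `p`.

Plugged in: (GU) `GU.gaussFrac` (helper42), (ES) `es_of_k18s` (helper44), (HN) `HN.hnMem`, `HN.hnDiv`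
(helper43), the Kummer model `KumType.kumModelK18s` (helper42), the (EIG) adapter
`EigAdapter.hasEigen_of_EIG` (helper29), the final wiring `s29_of_kum`, `s42_of_kum` (helper22).

Exports `kum_of_k18s_eig`, `s29_of_k18s_eig`, `s42_of_k18s_eig`.
-/
import Mathlib
import Fermat.Agent.GJ.Kum.KumTypeES
import Fermat.Agent.GJ.Kum.EigAdapter
import Fermat.Agent.GJ.HN.Bridge
import Fermat.Agent.GJ.J4.S29S42Dry

set_option autoImplicit false

namespace Fermat.Agent.GJ.S29Final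

open IsLocalRing Fermat.Agent.GJ.Kum Fermat.Agent.GJ.Kum.KumType Fermat.Agent.GJ.KumGroup
open Fermat.Agent.GJ.S18.Front (K18s)

/-- **Gate J1**: the clause-free Kummer statement at all levels, all primes `p`, all good `ℓ`. -/
def K18sGate : Prop :=
  ∀ (N : ℕ) [NeZero N] (p : ℕ), p.Prime → ∀ ℓ : ℕ, ℓ.Prime → ¬ ℓ ∣ N * p →
    ∀ A : ValuationSubring Qb, A.LiesOverPrime ℓ → K18s A (residue A) N p

/-- **Gate J2**: every mod-`p` eigensystem occurs in the Kummer group. -/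
def EIGGate : Prop := ∀ (N : ℕ) [NeZero N] (p : ℕ) [Fact p.Prime], EIG N p

/-- (HN1) in the shape of `Kum.HNMem` (helper43's `HN.hnMem`) -/
theorem hnMem_all (N : ℕ) [NeZero N] (ℓ : ℕ) (hℓ : ℓ.Prime) (hℓN : ¬ ℓ ∣ N) :
    @HNMem N ℓ ⟨hℓ.ne_zero⟩ :=
  fun u hu => @HN.hnMem N ℓ _ ⟨hℓ.ne_zero⟩ hℓ hℓN u hu

/-- (HN2) in the shape of `Kum.HNDiv` (helper43's `HN.hnDiv`) -/
theorem hnDiv_all (N : ℕ) [NeZero N] (p ℓ : ℕ) (hℓ : ℓ.Prime) (hℓN : ¬ ℓ ∣ N) :
    @HNDiv N p ℓ ⟨hℓ.ne_zero⟩ :=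
  fun u x hu hx hdiv => @HN.hnDiv N ℓ _ ⟨hℓ.ne_zero⟩ hℓ hℓN p u x hu hx hdiv

/-- the Kummer model of level `N` for `p`, from gate J1 alone -/
noncomputable def kumModelOfGate (hK : K18sGate) (N : ℕ) [NeZero N] (p : ℕ) (hp : p.Prime) :
    J4Asm.KumModel N p :=
  kumModelK18s N p hp.pos (hK N p hp) (hnMem_all N) (hnDiv_all N p)

/-- **(KUM) from the two gates.** -/
theorem kum_of_k18s_eig (hK : K18sGate) (hE : EIGGate) : KUM := by
  intro N _ p hp
  refine ⟨kumModelOfGate hK N p hp.out, fun k0 _ _ _ θ => ?_⟩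
  refine EigAdapter.hasEigen_of_EIG (kumModelOfGate hK N p hp.out) (AddEquiv.refl _) ?_ (hE N p) k0 θ
  intro ℓ hℓ hℓN u u' h
  unfold kumModelOfGate kumModelK18s kumModelES
  exact kumModel_T_cls_of_eq _ _ _ _ hℓ hℓN u u' h

/-- **S29 from the two gates.** -/
theorem s29_of_k18s_eig (hK : K18sGate) (hE : EIGGate)
    {N : ℕ} {g : CuspForm (CongruenceSubgroup.Gamma0 N) 2} (hg : g.IsNormalizedEigenform)
    {p : ℕ} (hp : p.Prime) {k : Type} [Field k] [CharP k p]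
    (φ : integralClosure ℤ ℂ →+* k) :
    ∃ ρ : ResidualGaloisRep k, ρ.IsAttachedTo g φ ∧
      ∀ ℓ : ℕ, ℓ.Prime → ¬ ℓ ∣ N * p → ρ.IsUnramifiedAt ℓ :=
  s29_of_kum (kum_of_k18s_eig hK hE) hg hp φ

/-- **S42 from the two gates.** -/
theorem s42_of_k18s_eig (hK : K18sGate) (hE : EIGGate) (P : FreyPackage) :
    ∀ M : ℕ, 0 < M → P.EigenformResidualAttachmentAt M :=
  s42_of_kum (kum_of_k18s_eig hK hE) P

end Fermat.Agent.GJ.S29Final
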