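/-
GATE-J / J4 + J4-TATE (helper42): the GENERAL-MODULUS form of gate J1 and the Kummer models at
every modulus `m > 0` (in particular `m = p ^ n`, what S30/S31 consume through
`Tate.KumLevelData.ofKumModels` and the Tate tower).

* `K18sGateM` : `Front.K18s A (residue A) N m` for all `N ≠ 0`, all `m > 0`, all primes `ℓ ∤ N m`,
  all `A` over `ℓ`;  `k18sGate_of_M : K18sGateM → K18sGate`;
* `kumModelM hK N m hm : J4Asm.KumModel N m` with the `rfl` API
  (`kumModelM_K`, `kumModelM_gal`, `kumModelM_T_cls_of_eq`, `kumModelM_T_of_not`).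
-/
import Mathlib
import Fermat.Agent.GJ.J4.KumOfGates

set_option autoImplicit false

namespace Fermat.Agent.GJ.S29Final

open IsLocalRing Fermat.Agent.GJ.Kum Fermat.Agent.GJ.Kum.KumType Fermat.Agent.GJ.KumGroup
open Fermat.Agent.GJ.S18.Front (K18s)

/-- **Gate J1, general modulus**: the clause-free Kummer statement for every modulus `m > 0`. -/
def K18sGateM : Prop :=
  ∀ (N : ℕ) [NeZero N] (m : ℕ), 0 < m → ∀ ℓ : ℕ, ℓ.Prime → ¬ ℓ ∣ N * m →
    ∀ A : ValuationSubring Qb, A.LiesOverPrime ℓ → K18s A (residue A) N m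

theorem k18sGate_of_M (h : K18sGateM) : K18sGate :=
  fun N _ p hp ℓ hℓ hℓNp A hA => h N p hp.pos ℓ hℓ hℓNp A hA

/-- the Kummer model of level `N` for the modulus `m > 0`, from the general-modulus gate J1 -/
noncomputable def kumModelM (hK : K18sGateM) (N : ℕ) [NeZero N] (m : ℕ) (hm : 0 < m) :
    J4Asm.KumModel N m :=
  kumModelK18s N m hm (hK N m hm) (hnMem_all N) (hnDiv_all N m)

theorem kumModelM_K (hK : K18sGateM) (N : ℕ) [NeZero N] (m : ℕ) (hm : 0 < m) :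
    (kumModelM hK N m hm).K = Additive (Kum Kb (FK N) m) := rfl

theorem kumModelM_gal (hK : K18sGateM) (N : ℕ) [NeZero N] (m : ℕ) (hm : 0 < m) :
    (kumModelM hK N m hm).gal = KumType.gal N m := rfl

/-- `T ℓ [u] = [u']` as soon as the series of `u'` is the Hecke norm of the series of `u` -/
theorem kumModelM_T_cls_of_eq (hK : K18sGateM) (N : ℕ) [NeZero N] (m : ℕ) (hm : 0 < m)
    {ℓ : ℕ} (hℓ : ℓ.Prime) (hℓN : ¬ ℓ ∣ N) (u u' : pDivUnits Kb (FK N) m)
    (h : ((((u' : pDivUnits Kb (FK N) m) : (FK N)ˣ) : FK N) : LaurentSeries Kb) =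
      @heckeNormSeries Kb _ ℓ ⟨hℓ.ne_zero⟩
        ((((u : pDivUnits Kb (FK N) m) : (FK N)ˣ) : FK N) : LaurentSeries Kb)) :
    (kumModelM hK N m hm).T ℓ (Additive.ofMul (Kum.mk u)) = Additive.ofMul (Kum.mk u') := by
  unfold kumModelM kumModelK18s kumModelES
  exact kumModel_T_cls_of_eq _ _ _ _ hℓ hℓN u u' h

theorem kumModelM_T_of_not (hK : K18sGateM) (N : ℕ) [NeZero N] (m : ℕ) (hm : 0 < m)
    {ℓ : ℕ} (h : ¬ (ℓ.Prime ∧ ¬ ℓ ∣ N)) : (kumModelM hK N m hm).T ℓ = 0 := by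
  unfold kumModelM kumModelK18s kumModelES
  exact kumModel_T_of_not _ _ _ _ h

/-- the Galois action on a class, at every modulus -/
theorem kumModelM_gal_mk (hK : K18sGateM) (N : ℕ) [NeZero N] (m : ℕ) (hm : 0 < m)
    (σ : AlgebraicClosure ℚ ≃ₐ[ℚ] AlgebraicClosure ℚ) (u : pDivUnits Kb (FK N) m) :
    (kumModelM hK N m hm).gal σ (Additive.ofMul (Kum.mk u)) =
      Additive.ofMul (Kum.mk ⟨galUnits N σ u, galUnits_mem N m σ u u.2⟩) := rfl

end Fermat.Agent.GJ.S29Final
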