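/-
GATE-J / J4-ASM (helper31): the interface Props `FrobGenQ`, `HasCycChar` of `S29Asm.lean`
discharged from helper22's landed `GJ/CycChar.lean` and `GJ/FrobLiftMain.lean`.
-/
import Mathlib
import Fermat.Agent.GJ.J4.S29Asm
import Fermat.Agent.GJ.CycChar
import Fermat.Agent.GJ.FrobLiftMain

set_option autoImplicit false

namespace Fermat.Agent.GJ.J4Asm

open Fermat.Agent.GJ.CycChar

/-- (CYC) holds for every field of characteristic `p`. -/
theorem hasCycChar (p : ℕ) [Fact p.Prime] (k0 : Type) [Field k0] [CharP k0 p] :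
    HasCycChar p k0 := by
  let c : ZMod p →+* k0 := ZMod.castHom (dvd_refl p) k0
  refine ⟨(Units.map (c : ZMod p →* k0)).comp (cyc p), ?_, ?_, ?_⟩
  · obtain ⟨L, hL, h1⟩ := cyc_finiteLevel p
    refine ⟨L, hL, fun σ hσ => ?_⟩
    rw [MonoidHom.comp_apply, h1 σ hσ, map_one]
  · intro ℓ hℓ hne A hA σ hσ
    rw [MonoidHom.comp_apply, cyc_inertia hℓ hne hA hσ, map_one]
  · intro ℓ hℓ hne A hA τ hτ
    rw [MonoidHom.comp_apply, Units.coe_map]
    show c ((cyc p τ : (ZMod p)ˣ) : ZMod p) = (ℓ : k0)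
    rw [cyc_frob hℓ hne hA hτ, map_natCast]

/-- (FROB) holds (helper77's Frobenius theorem via helper22's adapter). -/
theorem frobGenQ' : FrobLift.FrobGenQ := FrobLift.frobGenQ

end Fermat.Agent.GJ.J4Asm
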