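/-
GATE-J / J4-ASM (helper31): the top of the S29 assembly, in hypothesis form.

`s29_of_gates`: the frozen S29 statement from
* `hALG`  : (ALG) `RepTwoStmt k0` for every finite field `k0`            (helper85 / helper27);
* `hKUM`  : for every level `N ≥ 1` and prime `p` a Kummer model `M : KumModel N p` in which every
            mod-`p` eigensystem `θ` of the Hecke algebra away from `N` has an eigenvector
            (J1 (K18) + J2 (EIG) + J3 (ES), packaged by `GJ/Kum/KumType.lean` + `EigAdapter.lean`).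
Everything else (Frobenius generation, cyclotomic character, eigensystem of `g`) is proved.
-/
import Mathlib
import Fermat.Agent.GJ.J4.S29Asm
import Fermat.Agent.GJ.J4.ESModule
import Fermat.Agent.GJ.J4.CycAdapter
import Fermat.Agent.GJ.J4.EigSys

set_option autoImplicit false
set_option linter.style.haveILetI false

open CuspForm

namespace Fermat.Agent.GJ.J4Asm

/-- The set of excluded primes used on the S29 path: the divisors of the level. -/
def levelSet (N : ℕ) : Set ℕ := {ℓ | ℓ ∣ N}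

theorem not_mem_levelSet {N ℓ : ℕ} (h : ¬ ℓ ∣ N) : ℓ ∉ levelSet N := h

/-- The eigenvalue function `ℓ ↦ θ(T_ℓ)` of a mod-`p` eigensystem (junk `0` at bad `ℓ`). -/
noncomputable def eigenvalueFn {N : ℕ} [NeZero N] {k0 : Type} [Field k0]
    (θ : heckeAlgebra N 2 (levelSet N) →+* k0) (ℓ : ℕ) : k0 :=
  if h : ℓ.Prime ∧ ¬ ℓ ∣ N then θ (heckeAlgebra.T h.1 h.2 (not_mem_levelSet h.2)) else 0

theorem eigenvalueFn_eq {N : ℕ} [NeZero N] {k0 : Type} [Field k0]
    (θ : heckeAlgebra N 2 (levelSet N) →+* k0) {ℓ : ℕ} (hℓ : ℓ.Prime) (hℓN : ¬ ℓ ∣ N) :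
    eigenvalueFn θ ℓ = θ (heckeAlgebra.T hℓ hℓN (not_mem_levelSet hℓN)) := by
  rw [eigenvalueFn, dif_pos ⟨hℓ, hℓN⟩]

/-- The hypothesis (KUM): the packaged output of J1 + J2 + J3 at level `N` for the prime `p`. -/
def KumGate (N : ℕ) [NeZero N] (p : ℕ) : Prop :=
  ∃ M : KumModel N p, ∀ (k0 : Type) [Field k0] [Finite k0] [CharP k0 p] [Algebra (ZMod p) k0]
    (θ : heckeAlgebra N 2 (levelSet N) →+* k0), M.HasEigen k0 (eigenvalueFn θ)

/-- The frozen statement of S29, verbatim (same `Prop` as `S42Asm.S29Statement`). -/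
def S29Stmt : Prop :=
  ∀ {N : ℕ} {g : CuspForm (CongruenceSubgroup.Gamma0 N) 2} (_ : g.IsNormalizedEigenform)
    {p : ℕ} (_ : p.Prime) {k : Type} [Field k] [CharP k p]
    (φ : integralClosure ℤ ℂ →+* k),
    ∃ ρ : ResidualGaloisRep k, ρ.IsAttachedTo g φ ∧
      ∀ ℓ : ℕ, ℓ.Prime → ¬ ℓ ∣ N * p → ρ.IsUnramifiedAt ℓ

/-- **S29 from the gates.** -/
theorem s29_of_gates
    (hALG : ∀ (k0 : Type) [Field k0] [Finite k0], RepTwoStmt k0)
    (hKUM : ∀ (N : ℕ) [NeZero N] (p : ℕ), p.Prime → KumGate N p) : S29Stmt := by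
  intro N g hg p hp k _ _ φ
  refine s29_of_core frobGenQ' hp φ fun hN => ?_
  haveI : NeZero N := ⟨hN⟩
  haveI : Fact p.Prime := ⟨hp⟩
  obtain ⟨k0, i1, i2, i3, ι, θ, hθ⟩ := EigSys.exists_eigensystem hg hp φ (levelSet N)
  letI := i1
  haveI := i2
  haveI := i3
  letI : Algebra (ZMod p) k0 := ZMod.algebra k0 p
  obtain ⟨M, hM⟩ := hKUM N p hp
  refine ⟨k0, i1, ι, eigenvalueFn θ, hALG k0, hasCycChar p k0,
    M.hasESModule k0 (eigenvalueFn θ) (hM k0 θ), fun ℓ hℓ hℓN => ?_⟩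
  obtain ⟨α, hα, hφ⟩ := hθ ℓ hℓ hℓN (not_mem_levelSet hℓN)
  exact ⟨α, hα, by rw [hφ, eigenvalueFn_eq θ hℓ hℓN]⟩

end Fermat.Agent.GJ.J4Asm
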