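/-
GATE-J (helper31): `eigAll : KumFinal.EIGAll` — J2's interface (EIG) at every level and prime,
wired from the landed leaves:
`EigAsm.Inst.eig_of_C'` (helper66/helper86: SatC, DescP, D1, IsPowDesc discharged),
`Auto.exC` (helper57), `PDiv.pdivC` (helper49/helper71), `HN.hn1Q` (helper43),
`J2.Lat.lat` (helper13).
Hence `s29_of_k18s : K18sAll → (frozen S29 statement)`: S29/S42 depend on J1 only.
-/
import Mathlib
import Fermat.Agent.GJ.J4.KumFinal
import Fermat.Agent.GJ.J2.EigDescInst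
import Fermat.Agent.GJ.J2.Auto.ExC
import Fermat.Agent.GJ.J2.PDivCFinal
import Fermat.Agent.GJ.J2.LatLeaf
import Fermat.Agent.GJ.HN.HN1Q

set_option autoImplicit false
set_option linter.style.haveILetI false

open CuspForm

namespace Fermat.Agent.GJ.KumFinal

/-- **J2's export (EIG) at every level `N ≥ 1` and prime `p`.** -/
theorem eigAll : EIGAll := by
  intro N _ p hp
  haveI : Fact p.Prime := ⟨hp⟩
  haveI : NeZero p := ⟨hp.ne_zero⟩
  obtain ⟨ζ, hζ⟩ : ∃ ζ : ℂ, IsPrimitiveRoot ζ p := ⟨_, Complex.isPrimitiveRoot_exp p hp.ne_zero⟩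
  exact EigAsm.Inst.eig_of_C' (N := N) (p := p) hζ (Auto.exC N p (hζ.pow_eq_one)) (PDiv.pdivC N p ζ)
    (HN.hn1Q N) (J2.Lat.lat N p)

/-- **S29 from J1's (K18s) alone.** -/
theorem s29_of_k18s (hK : K18sAll)
    {N : ℕ} {g : CuspForm (CongruenceSubgroup.Gamma0 N) 2} (hg : g.IsNormalizedEigenform)
    {p : ℕ} (hp : p.Prime) {k : Type} [Field k] [CharP k p]
    (φ : integralClosure ℤ ℂ →+* k) :
    ∃ ρ : ResidualGaloisRep k, ρ.IsAttachedTo g φ ∧
      ∀ ℓ : ℕ, ℓ.Prime → ¬ ℓ ∣ N * p → ρ.IsUnramifiedAt ℓ :=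
  s29_of_k18s_eig hK eigAll hg hp φ

end Fermat.Agent.GJ.KumFinal
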