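/-
GATE-J (helper31): J1 closed.  `k18sAux : K18sAux` from helper32's unconditional
`Haupt.kummer_bar_final` (Layer C) and helper45's adapter `Val.k18s_of_kummer_rw`; hence
`k18sAll : KumFinal.K18sAll` (helper30's `kumFinal_k18sAll_of_aux`) and the frozen statement of S29
without hypotheses (`s29_final`).
-/
import Mathlib
import Fermat.Agent.GJ.J1.K18sAllOfAux
import Fermat.Agent.GJ.J1.Haupt.KummerBarFinal
import Fermat.Agent.GJ.J1.Val.K18sOfRw
import Fermat.Agent.GJ.J4.EigAllFinal

set_option autoImplicit false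
set_option linter.style.haveILetI false

open CuspForm

namespace Fermat.Agent.GJ.KumFinal

/-- **J1's export at the auxiliary levels** (all `ℓ`, all places, all exponents prime to `ℓ`). -/
theorem k18sAux : J1.K18sAllOfAux.K18sAux := by
  intro ℓ hℓ A hA N' _ hℓN h2 h3 m hm
  haveI : Fact ℓ.Prime := ⟨hℓ⟩
  exact J1.Val.k18s_of_kummer_rw N' A fun ha hb hab hne hdvd =>
    J1.Haupt.kummer_bar_final N' A hℓN hA h2 h3 hm ha hb hab hne hdvd

/-- **J1's export at all levels.** -/
theorem k18sAll : K18sAll := J1.K18sAllOfAux.kumFinal_k18sAll_of_aux k18sAux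

/-- **The frozen statement of S29.** -/
theorem s29_final
    {N : ℕ} {g : CuspForm (CongruenceSubgroup.Gamma0 N) 2} (hg : g.IsNormalizedEigenform)
    {p : ℕ} (hp : p.Prime) {k : Type} [Field k] [CharP k p]
    (φ : integralClosure ℤ ℂ →+* k) :
    ∃ ρ : ResidualGaloisRep k, ρ.IsAttachedTo g φ ∧
      ∀ ℓ : ℕ, ℓ.Prime → ¬ ℓ ∣ N * p → ρ.IsUnramifiedAt ℓ :=
  s29_of_k18s k18sAll hg hp φ

end Fermat.Agent.GJ.KumFinal
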