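/-
GATE-J / J4-EIGCHAR (helper27): the eigencharacter of a normalised eigenform.

For `[NeZero N]` and `hg : g.IsNormalizedEigenform` (a purely formal multiplicativity statement
about `q`-coefficients):
* `heckeTLin_eq`, `heckeULin_eq`: `T_ℓ g = a_ℓ(g) • g`, `U_q g = a_q(g) • g`;
* `lam hg : heckeAlgebra N 2 S →+* ℂ` with `t g = lam hg t • g`, `lam (T ℓ) = a_ℓ(g)`;
* `lamInt hg : heckeAlgebra N 2 S →+* integralClosure ℤ ℂ` (S22: the Hecke algebra is a finitely
  generated `ℤ`-module);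
* `exists_residue_datum`: for `φ : integralClosure ℤ ℂ →+* k`, `CharP k p`, a FINITE field `k0`
  with `ι : k0 →+* k` and `θ : heckeAlgebra N 2 ∅ →+* k0`, `ι (θ (T ℓ)) = φ a_ℓ(g)`.
-/
import Fermat.Agent.S22
import Fermat.Agent.S49_helper65.Lattice
import Fermat.Prelude.Def_FLTPrelim_ModularRep

set_option autoImplicit false

namespace Fermat.Agent.GJ.EigChar

open CuspForm CongruenceSubgroup ModularFormClass Fermat.Agent.S49_helper65

variable {N : ℕ} {g : CuspForm (Gamma0 N) 2}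

/-! ### (1) the Hecke relations of the `q`-coefficients -/

theorem qCoeff_mul_prime_of_not_dvd (hg : g.IsNormalizedEigenform) {ℓ : ℕ} (hℓ : ℓ.Prime)
    (hℓN : ¬ ℓ ∣ N) (n : ℕ) :
    qCoeff g (n * ℓ) + (if ℓ ∣ n then (ℓ : ℂ) * qCoeff g (n / ℓ) else 0) =
      qCoeff g ℓ * qCoeff g n := by
  rcases Nat.eq_zero_or_pos n with rfl | hn
  · simp [qCoeff_zero_cusp]
  obtain ⟨r, m, hm, rfl⟩ := Nat.exists_eq_pow_mul_and_not_dvd hn.ne' ℓ hℓ.ne_one
  have hcop : ∀ j : ℕ, (ℓ ^ j).Coprime m :=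
    fun j => Nat.Coprime.pow_left j ((Nat.Prime.coprime_iff_not_dvd hℓ).mpr hm)
  have e1 : ℓ ^ r * m * ℓ = ℓ ^ (r + 1) * m := by ring
  rw [e1, hg.qCoeff_mul_of_coprime _ _ (hcop (r + 1)), hg.qCoeff_mul_of_coprime _ _ (hcop r)]
  rcases r with _ | r'
  · have hnd : ¬ ℓ ∣ ℓ ^ 0 * m := by simpa using hm
    rw [if_neg hnd]
    simp [hg.qCoeff_one]
  · have hd : ℓ ∣ ℓ ^ (r' + 1) * m := Dvd.dvd.mul_right (dvd_pow_self ℓ (Nat.succ_ne_zero r')) m
    have e2 : ℓ ^ (r' + 1) * m / ℓ = ℓ ^ r' * m := by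
      rw [pow_succ, mul_assoc, mul_comm ℓ m, ← mul_assoc, Nat.mul_div_cancel _ hℓ.pos]
    rw [if_pos hd, e2, hg.qCoeff_mul_of_coprime _ _ (hcop r'),
      hg.qCoeff_prime_pow_of_not_dvd ℓ r' hℓ hℓN]
    ring

theorem qCoeff_mul_prime_of_dvd (hg : g.IsNormalizedEigenform) {q : ℕ} (hq : q.Prime)
    (hqN : q ∣ N) (n : ℕ) :
    qCoeff g (n * q) = qCoeff g q * qCoeff g n := by
  rcases Nat.eq_zero_or_pos n with rfl | hn
  · simp [qCoeff_zero_cusp]
  obtain ⟨r, m, hm, rfl⟩ := Nat.exists_eq_pow_mul_and_not_dvd hn.ne' q hq.ne_one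
  have hcop : ∀ j : ℕ, (q ^ j).Coprime m :=
    fun j => Nat.Coprime.pow_left j ((Nat.Prime.coprime_iff_not_dvd hq).mpr hm)
  have e1 : q ^ r * m * q = q ^ (r + 1) * m := by ring
  rw [e1, hg.qCoeff_mul_of_coprime _ _ (hcop (r + 1)), hg.qCoeff_mul_of_coprime _ _ (hcop r)]
  rcases r with _ | r'
  · simp [hg.qCoeff_one]
  · rw [hg.qCoeff_prime_pow_of_dvd q r' hq hqN]
    ring

theorem heckeTLin_eq (hg : g.IsNormalizedEigenform) {ℓ : ℕ} (hℓ : ℓ.Prime) (hℓN : ¬ ℓ ∣ N) :
    CuspForm.heckeTLin 2 hℓ hℓN g = qCoeff g ℓ • g := by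
  rw [← sub_eq_zero]
  apply cusp_eq_zero_of_qCoeff
  intro n
  rw [qCoeff_sub_cusp, qCoeff_heckeTLin, qCoeff_smul_cusp, qCoeff_mul_prime_of_not_dvd hg hℓ hℓN,
    sub_self]

theorem heckeULin_eq [NeZero N] (hg : g.IsNormalizedEigenform) {q : ℕ} (hq : q.Prime)
    (hqN : q ∣ N) : CuspForm.heckeULin 2 hqN g = qCoeff g q • g := by
  rw [← sub_eq_zero]
  apply cusp_eq_zero_of_qCoeff
  intro n
  rw [qCoeff_sub_cusp, qCoeff_heckeULin g hq hqN, qCoeff_smul_cusp,
    qCoeff_mul_prime_of_dvd hg hq hqN, sub_self]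

/-! ### (2) the eigencharacter -/

section Lam

variable [NeZero N] {S : Set ℕ}

/-- every Hecke operator has `g` as an eigenvector -/
theorem exists_eigenvalue (hg : g.IsNormalizedEigenform) (t : CuspForm.heckeAlgebra N 2 S) :
    ∃ c : ℂ, (t : Module.End ℂ (CuspForm (Gamma0 N) 2)) g = c • g := by
  obtain ⟨t, ht⟩ := t
  change ∃ c : ℂ, t g = c • g
  induction ht using Algebra.adjoin_induction with
  | mem x hx =>
    rcases hx with ⟨ℓ, hℓ, hℓN, -, rfl⟩ | ⟨q, hqN, hq, -, rfl⟩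
    · exact ⟨_, heckeTLin_eq hg hℓ hℓN⟩
    · exact ⟨_, heckeULin_eq hg hq hqN⟩
  | algebraMap n =>
    refine ⟨(n : ℂ), ?_⟩
    rw [Algebra.algebraMap_eq_smul_one, LinearMap.smul_apply, Module.End.one_apply,
      Int.cast_smul_eq_zsmul]
  | add x y _ _ hx hy =>
    obtain ⟨c, hc⟩ := hx
    obtain ⟨c', hc'⟩ := hy
    exact ⟨c + c', by rw [LinearMap.add_apply, hc, hc', add_smul]⟩
  | mul x y _ _ hx hy =>
    obtain ⟨c, hc⟩ := hx
    obtain ⟨c', hc'⟩ := hy
    exact ⟨c' * c, by rw [Module.End.mul_apply, hc', map_smul, hc, smul_smul]⟩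

/-- the eigenvalue of a Hecke operator on `g` -/
noncomputable def lamFun (hg : g.IsNormalizedEigenform) (t : CuspForm.heckeAlgebra N 2 S) : ℂ :=
  (exists_eigenvalue hg t).choose

theorem lamFun_spec (hg : g.IsNormalizedEigenform) (t : CuspForm.heckeAlgebra N 2 S) :
    (t : Module.End ℂ (CuspForm (Gamma0 N) 2)) g = lamFun hg t • g :=
  (exists_eigenvalue hg t).choose_spec

theorem lamFun_unique (hg : g.IsNormalizedEigenform) (t : CuspForm.heckeAlgebra N 2 S) {c : ℂ}
    (h : (t : Module.End ℂ (CuspForm (Gamma0 N) 2)) g = c • g) : lamFun hg t = c := by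
  have h1 := lamFun_spec hg t
  rw [h] at h1
  exact (smul_left_injective ℂ hg.ne_zero h1).symm

/-- **the eigencharacter** `t ↦ (eigenvalue of t on g)` -/
noncomputable def lam (hg : g.IsNormalizedEigenform) : CuspForm.heckeAlgebra N 2 S →+* ℂ where
  toFun := lamFun hg
  map_one' := lamFun_unique hg 1 (by simp)
  map_mul' t t' := lamFun_unique hg (t * t') (by
    rw [MulMemClass.coe_mul, Module.End.mul_apply, lamFun_spec hg t', map_smul, lamFun_spec hg t,
      smul_smul, mul_comm])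
  map_zero' := lamFun_unique hg 0 (by simp)
  map_add' t t' := lamFun_unique hg (t + t') (by
    rw [AddMemClass.coe_add, LinearMap.add_apply, lamFun_spec hg t, lamFun_spec hg t', add_smul])

theorem lam_spec (hg : g.IsNormalizedEigenform) (t : CuspForm.heckeAlgebra N 2 S) :
    (t : Module.End ℂ (CuspForm (Gamma0 N) 2)) g = lam hg t • g :=
  lamFun_spec hg t

theorem lam_T (hg : g.IsNormalizedEigenform) {ℓ : ℕ} (hℓ : ℓ.Prime) (hℓN : ¬ ℓ ∣ N)
    (hℓS : ℓ ∉ S) : lam hg (CuspForm.heckeAlgebra.T hℓ hℓN hℓS) = qCoeff g ℓ :=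
  lamFun_unique hg _ (by rw [CuspForm.heckeAlgebra.coe_T]; exact heckeTLin_eq hg hℓ hℓN)

theorem lam_U (hg : g.IsNormalizedEigenform) {q : ℕ} (hq : q.Prime) (hqN : q ∣ N)
    (hqS : q ∉ S) : lam hg (CuspForm.heckeAlgebra.U hq hqN hqS) = qCoeff g q :=
  lamFun_unique hg _ (by rw [CuspForm.heckeAlgebra.coe_U]; exact heckeULin_eq hg hq hqN)

/-! ### (3) integrality -/

theorem isIntegral_lam (hg : g.IsNormalizedEigenform) (t : CuspForm.heckeAlgebra N 2 S) :
    IsIntegral ℤ (lam hg t) := by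
  have : Module.Finite ℤ (CuspForm.heckeAlgebra N 2 S) := Fermat.Agent.S22.result N 2 S
  exact map_isIntegral_int (lam hg) (IsIntegral.of_finite ℤ t)

/-- the eigencharacter with values in the ring of algebraic integers -/
noncomputable def lamInt (hg : g.IsNormalizedEigenform) :
    CuspForm.heckeAlgebra N 2 S →+* integralClosure ℤ ℂ :=
  (lam hg).codRestrict (integralClosure ℤ ℂ) (fun t => isIntegral_lam hg t)

theorem coe_lamInt (hg : g.IsNormalizedEigenform) (t : CuspForm.heckeAlgebra N 2 S) :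
    ((lamInt hg t : integralClosure ℤ ℂ) : ℂ) = lam hg t := rfl

end Lam

/-! ### (4) the finite residue field -/

section Residue

variable [NeZero N] {S : Set ℕ}

/-- the image of a finitely generated `ℤ`-algebra-module in a field of characteristic `p` is
finite -/
theorem finite_range_of_moduleFinite {R : Type*} [Ring R] [Module.Finite ℤ R] {k : Type*}
    [Field k] {p : ℕ} (hp : p.Prime) [CharP k p] (ψ : R →+* k) : (Set.range ψ).Finite := by
  have : Fact p.Prime := ⟨hp⟩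
  let _ : Algebra (ZMod p) k := ZMod.algebra k p
  obtain ⟨s, hs⟩ := (Module.Finite.fg_top : (⊤ : Submodule ℤ R).FG)
  have hfinset : (ψ '' (s : Set R)).Finite := (Finset.finite_toSet s).image ψ
  have hmod : Module.Finite (ZMod p) (Submodule.span (ZMod p) (ψ '' (s : Set R))) :=
    Module.Finite.span_of_finite (ZMod p) hfinset
  have hfin : Finite (Submodule.span (ZMod p) (ψ '' (s : Set R))) :=
    Module.finite_of_finite (ZMod p)
  have hsub : Set.range ψ ⊆ (Submodule.span (ZMod p) (ψ '' (s : Set R)) : Set k) := by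
    rintro _ ⟨t, rfl⟩
    have ht : t ∈ Submodule.span ℤ (s : Set R) := by rw [hs]; trivial
    induction ht using Submodule.span_induction with
    | mem x hx => exact Submodule.subset_span ⟨x, hx, rfl⟩
    | zero => rw [map_zero]; exact Submodule.zero_mem _
    | add x y _ _ hx hy => rw [map_add]; exact Submodule.add_mem _ hx hy
    | smul n x _ hx =>
      have h1 : ψ (n • x) = ((n : ZMod p)) • ψ x := by
        rw [zsmul_eq_mul, map_mul, map_intCast, Algebra.smul_def, map_intCast]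
      rw [h1]
      exact Submodule.smul_mem _ _ hx
  exact (Set.toFinite _).subset hsub

/-- **(4)** the residue datum of a normalised eigenform and a ring homomorphism
`φ : ℤ̄ → k` into a field of characteristic `p`: a finite field `k0 ⊆ k` through which
`φ ∘ lam` factors. -/
theorem exists_residue_datum (hg : g.IsNormalizedEigenform) {p : ℕ} (hp : p.Prime) {k : Type}
    [Field k] [CharP k p] (φ : integralClosure ℤ ℂ →+* k) :
    ∃ (k0 : Type) (_ : Field k0) (_ : Finite k0) (_ : CharP k0 p) (ι : k0 →+* k)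
      (θ : CuspForm.heckeAlgebra N 2 S →+* k0),
      ∀ t : CuspForm.heckeAlgebra N 2 S, ι (θ t) = φ (lamInt hg t) := by
  set ψ : CuspForm.heckeAlgebra N 2 S →+* k := φ.comp (lamInt hg) with hψ
  have : Module.Finite ℤ (CuspForm.heckeAlgebra N 2 S) := Fermat.Agent.S22.result N 2 S
  have hR : (Set.range ψ).Finite := finite_range_of_moduleFinite hp ψ
  set K0 : Subfield k := Subfield.closure (Set.range ψ) with hK0
  have hK0fin : (K0 : Set k).Finite := by
    have h2 : (K0 : Set k) ⊆ Set.image2 (fun y z => y / z) (Set.range ψ) (Set.range ψ) := by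
      intro x hx
      obtain ⟨y, hy, z, hz, rfl⟩ := Subfield.mem_closure_iff.mp hx
      rw [← RingHom.coe_range, Subring.closure_eq] at hy hz
      exact ⟨y, hy, z, hz, rfl⟩
    exact (hR.image2 _ hR).subset h2
  have hfin : Finite K0 := hK0fin.to_subtype
  have hchar : CharP K0 p := RingHom.charP K0.subtype K0.subtype_injective p
  exact ⟨K0, inferInstance, hfin, hchar, K0.subtype,
    ψ.codRestrict K0 (fun t => Subfield.subset_closure ⟨t, rfl⟩), fun t => rfl⟩

/-- the `hcore` shape of `s29_of_core`: the eigenvalues `a_ℓ(g)` are hit. -/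
theorem exists_residue_datum_T (hg : g.IsNormalizedEigenform) {p : ℕ} (hp : p.Prime) {k : Type}
    [Field k] [CharP k p] (φ : integralClosure ℤ ℂ →+* k) :
    ∃ (k0 : Type) (_ : Field k0) (_ : Finite k0) (_ : CharP k0 p) (ι : k0 →+* k)
      (θ : CuspForm.heckeAlgebra N 2 S →+* k0),
      ∀ (ℓ : ℕ) (hℓ : ℓ.Prime) (hℓN : ¬ ℓ ∣ N) (hℓS : ℓ ∉ S),
        ∃ α : integralClosure ℤ ℂ, (α : ℂ) = qCoeff g ℓ ∧
          φ α = ι (θ (CuspForm.heckeAlgebra.T hℓ hℓN hℓS)) := by
  obtain ⟨k0, i1, i2, i3, ι, θ, h⟩ := exists_residue_datum (S := S) hg hp φ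
  refine ⟨k0, i1, i2, i3, ι, θ, fun ℓ hℓ hℓN hℓS => ?_⟩
  exact ⟨lamInt hg (CuspForm.heckeAlgebra.T hℓ hℓN hℓS), by rw [coe_lamInt, lam_T], (h _).symm⟩

end Residue

end Fermat.Agent.GJ.EigChar
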