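/-
GATE-J / J4-EIGCHAR (helper4): the eigencharacter of a normalised eigenform and its reduction.

For `g : CuspForm (Γ₀ N) 2` with `g.IsNormalizedEigenform` (`N ≥ 1`):
* `heckeTLin_apply`, `heckeULin_apply` : `T_ℓ g = a_ℓ(g) g`, `U_q g = a_q(g) g`;
* `lam hg S : heckeAlgebra N 2 S →+* ℂ` with `t g = lam t • g`, `lam (T ℓ) = a_ℓ(g)`;
* `isIntegral_lam` : the values of `lam` are algebraic integers (S22);
* `exists_residue_eigensystem` : for `φ : integralClosure ℤ ℂ →+* k`, `char k = p`, a FINITE field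
  `k0`, `ι : k0 →+* k` and `θ : heckeAlgebra N 2 ∅ →+* k0` with `ι (θ (T ℓ)) = φ (a_ℓ(g))`.
-/
import Mathlib
import Fermat.Prelude.Def_CuspForm_HeckeAlgebra
import Fermat.Agent.S49_helper65.Eigenform
import Fermat.Agent.S22

set_option autoImplicit false

noncomputable section

namespace Fermat.Agent.GJ.J4Asm.EigChar

open CongruenceSubgroup ModularFormClass CuspForm Fermat.Agent.S49_helper65

variable {N : ℕ} {g : CuspForm (Gamma0 N) 2}

/-! ### the arithmetic of the coefficients -/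

/-- `a_{ℓ^r m} = a_{ℓ^r} a_m` for `ℓ ∤ m`. -/
theorem qCoeff_pow_mul (hg : g.IsNormalizedEigenform) {ℓ : ℕ} (hℓ : ℓ.Prime) (r m : ℕ)
    (hm : ¬ ℓ ∣ m) : qCoeff g (ℓ ^ r * m) = qCoeff g (ℓ ^ r) * qCoeff g m :=
  hg.qCoeff_mul_of_coprime _ _
    (Nat.Coprime.pow_left r ((Nat.Prime.coprime_iff_not_dvd hℓ).mpr hm))

/-- the Hecke relation at a prime not dividing the level, for all coefficients -/
theorem qCoeff_relation_not_dvd (hg : g.IsNormalizedEigenform) {ℓ : ℕ} (hℓ : ℓ.Prime)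
    (hℓN : ¬ ℓ ∣ N) (n : ℕ) :
    qCoeff g (n * ℓ) + (if ℓ ∣ n then (ℓ : ℂ) * qCoeff g (n / ℓ) else 0)
      = qCoeff g ℓ * qCoeff g n := by
  rcases Nat.eq_zero_or_pos n with rfl | hn
  · simp [qCoeff_zero_cusp]
  obtain ⟨r, m, hm, rfl⟩ := Nat.exists_eq_pow_mul_and_not_dvd hn.ne' ℓ hℓ.ne_one
  have h1 : ℓ ^ r * m * ℓ = ℓ ^ (r + 1) * m := by ring
  rw [h1, qCoeff_pow_mul hg hℓ (r + 1) m hm, qCoeff_pow_mul hg hℓ r m hm]
  rcases Nat.eq_zero_or_pos r with rfl | hr
  · have hnd : ¬ ℓ ∣ ℓ ^ 0 * m := by simpa using hm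
    rw [if_neg hnd]
    simp [hg.qCoeff_one]
  · obtain ⟨s, rfl⟩ : ∃ s, r = s + 1 := ⟨r - 1, by omega⟩
    have hd : ℓ ∣ ℓ ^ (s + 1) * m := Dvd.dvd.mul_right (dvd_pow_self ℓ (by omega)) m
    rw [if_pos hd]
    have h2 : ℓ ^ (s + 1) * m / ℓ = ℓ ^ s * m := by
      rw [pow_succ, mul_assoc, mul_comm ℓ m, ← mul_assoc]
      exact Nat.mul_div_cancel _ hℓ.pos
    rw [h2, qCoeff_pow_mul hg hℓ s m hm, hg.qCoeff_prime_pow_of_not_dvd ℓ s hℓ hℓN]
    ring

/-- the Hecke relation at a prime dividing the level -/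
theorem qCoeff_relation_dvd (hg : g.IsNormalizedEigenform) {q : ℕ} (hq : q.Prime)
    (hqN : q ∣ N) (n : ℕ) :
    qCoeff g (n * q) = qCoeff g q * qCoeff g n := by
  rcases Nat.eq_zero_or_pos n with rfl | hn
  · simp [qCoeff_zero_cusp]
  obtain ⟨r, m, hm, rfl⟩ := Nat.exists_eq_pow_mul_and_not_dvd hn.ne' q hq.ne_one
  have h1 : q ^ r * m * q = q ^ (r + 1) * m := by ring
  rw [h1, qCoeff_pow_mul hg hq (r + 1) m hm, qCoeff_pow_mul hg hq r m hm]
  rcases Nat.eq_zero_or_pos r with rfl | hr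
  · simp [hg.qCoeff_one]
  · obtain ⟨s, rfl⟩ : ∃ s, r = s + 1 := ⟨r - 1, by omega⟩
    rw [hg.qCoeff_prime_pow_of_dvd q s hq hqN]
    ring

/-! ### the eigen-equations -/

theorem ne_zero_of_isNormalizedEigenform (hg : g.IsNormalizedEigenform) : g ≠ 0 := by
  rintro rfl
  have h := hg.qCoeff_one
  have h0 : qCoeff (⇑(0 : CuspForm (Gamma0 N) 2)) 1 = 0 := by
    have := qCoeff_smul_cusp (0 : ℂ) (0 : CuspForm (Gamma0 N) 2) 1
    simpa using this
  rw [h0] at h
  exact zero_ne_one h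

theorem cusp_ext_qCoeff (f f' : CuspForm (Gamma0 N) 2) (h : ∀ n, qCoeff f n = qCoeff f' n) :
    f = f' := by
  have h1 : f - f' = 0 := by
    apply cusp_eq_zero_of_qCoeff
    intro n
    have h2 : f - f' = f + (-1 : ℂ) • f' := by rw [neg_one_smul, sub_eq_add_neg]
    have h3 : qCoeff (⇑(f + (-1 : ℂ) • f')) n = qCoeff f n + qCoeff (⇑((-1 : ℂ) • f')) n := by
      unfold qCoeff
      have hΓ := one_mem_strictPeriods_Gamma0 N
      have hcoe : (⇑(f + (-1 : ℂ) • f') : UpperHalfPlane → ℂ) = ⇑f + ⇑((-1 : ℂ) • f') := rfl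
      rw [hcoe, ModularForm.qExpansion_add one_pos hΓ f ((-1 : ℂ) • f')]
      simp
    rw [h2, h3, qCoeff_smul_cusp, h n]
    ring
  exact sub_eq_zero.mp h1

theorem heckeTLin_apply (hg : g.IsNormalizedEigenform) {ℓ : ℕ} (hℓ : ℓ.Prime) (hℓN : ¬ ℓ ∣ N) :
    heckeTLin 2 hℓ hℓN g = qCoeff g ℓ • g := by
  apply cusp_ext_qCoeff
  intro n
  rw [qCoeff_heckeTLin, qCoeff_smul_cusp, qCoeff_relation_not_dvd hg hℓ hℓN]

theorem heckeULin_apply [NeZero N] (hg : g.IsNormalizedEigenform) {q : ℕ} (hq : q.Prime)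
    (hqN : q ∣ N) : heckeULin 2 hqN g = qCoeff g q • g := by
  apply cusp_ext_qCoeff
  intro n
  rw [qCoeff_heckeULin g hq hqN, qCoeff_smul_cusp, qCoeff_relation_dvd hg hq hqN]

/-! ### the eigencharacter -/

section Lam

variable [NeZero N] (hg : g.IsNormalizedEigenform) (S : Set ℕ)

include hg in
/-- every element of the Hecke algebra has `g` as an eigenvector -/
theorem exists_eigenvalue (t : heckeAlgebra N 2 S) :
    ∃ c : ℂ, (t : Module.End ℂ (CuspForm (Gamma0 N) 2)) g = c • g := by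
  obtain ⟨t, ht⟩ := t
  show ∃ c : ℂ, t g = c • g
  induction ht using Algebra.adjoin_induction with
  | mem x hx =>
    rcases hx with ⟨ℓ, hℓ, hℓN, -, rfl⟩ | ⟨q, hqN, hq, -, rfl⟩
    · exact ⟨_, heckeTLin_apply hg hℓ hℓN⟩
    · exact ⟨_, heckeULin_apply hg hq hqN⟩
  | algebraMap r =>
    refine ⟨(r : ℂ), ?_⟩
    rw [Algebra.algebraMap_eq_smul_one, LinearMap.smul_apply, Module.End.one_apply,
      Int.cast_smul_eq_zsmul]
  | add x y _ _ hx hy =>
    obtain ⟨cx, hcx⟩ := hx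
    obtain ⟨cy, hcy⟩ := hy
    exact ⟨cx + cy, by rw [LinearMap.add_apply, hcx, hcy, add_smul]⟩
  | mul x y _ _ hx hy =>
    obtain ⟨cx, hcx⟩ := hx
    obtain ⟨cy, hcy⟩ := hy
    exact ⟨cy * cx, by rw [Module.End.mul_apply, hcy, map_smul, hcx, smul_smul]⟩

/-- the eigenvalue of `t` on `g`, read off from the first coefficient -/
def lamFun (g : CuspForm (Gamma0 N) 2) (S : Set ℕ) (t : heckeAlgebra N 2 S) : ℂ :=
  qCoeff ((t : Module.End ℂ (CuspForm (Gamma0 N) 2)) g) 1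

include hg in
theorem lamFun_eq_of_apply_eq (t : heckeAlgebra N 2 S) (c : ℂ)
    (h : (t : Module.End ℂ (CuspForm (Gamma0 N) 2)) g = c • g) : lamFun g S t = c := by
  rw [lamFun, h, qCoeff_smul_cusp, hg.qCoeff_one, mul_one]

include hg in
theorem apply_eq_lamFun_smul (t : heckeAlgebra N 2 S) :
    (t : Module.End ℂ (CuspForm (Gamma0 N) 2)) g = lamFun g S t • g := by
  obtain ⟨c, hc⟩ := exists_eigenvalue hg S t
  rw [lamFun_eq_of_apply_eq hg S t c hc, hc]

/-- **the eigencharacter** of a normalised eigenform -/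
def lam : heckeAlgebra N 2 S →+* ℂ where
  toFun := lamFun g S
  map_one' := lamFun_eq_of_apply_eq hg S 1 1 (by rw [one_smul]; rfl)
  map_mul' t t' := by
    apply lamFun_eq_of_apply_eq hg S
    show (t : Module.End ℂ (CuspForm (Gamma0 N) 2)) ((t' : Module.End ℂ _) g) = _
    rw [apply_eq_lamFun_smul hg S t', map_smul, apply_eq_lamFun_smul hg S t, smul_smul, mul_comm]
  map_zero' := lamFun_eq_of_apply_eq hg S 0 0 (by rw [zero_smul]; rfl)
  map_add' t t' := by
    apply lamFun_eq_of_apply_eq hg S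
    show (t : Module.End ℂ (CuspForm (Gamma0 N) 2)) g + (t' : Module.End ℂ _) g = _
    rw [apply_eq_lamFun_smul hg S t, apply_eq_lamFun_smul hg S t', add_smul]

theorem apply_eq_lam_smul (t : heckeAlgebra N 2 S) :
    (t : Module.End ℂ (CuspForm (Gamma0 N) 2)) g = lam hg S t • g :=
  apply_eq_lamFun_smul hg S t

theorem lam_T {ℓ : ℕ} (hℓ : ℓ.Prime) (hℓN : ¬ ℓ ∣ N) (hℓS : ℓ ∉ S) :
    lam hg S (heckeAlgebra.T hℓ hℓN hℓS) = qCoeff g ℓ :=
  lamFun_eq_of_apply_eq hg S _ _ (heckeTLin_apply hg hℓ hℓN)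

theorem lam_U {q : ℕ} (hq : q.Prime) (hqN : q ∣ N) (hqS : q ∉ S) :
    lam hg S (heckeAlgebra.U hq hqN hqS) = qCoeff g q :=
  lamFun_eq_of_apply_eq hg S _ _ (heckeULin_apply hg hq hqN)

/-- the eigenvalues are algebraic integers (finiteness of the Hecke algebra, S22) -/
theorem isIntegral_lam (t : heckeAlgebra N 2 S) : IsIntegral ℤ (lam hg S t) := by
  have hfin : Module.Finite ℤ (heckeAlgebra N 2 S) := Fermat.Agent.S22.result N 2 S
  have h1 : IsIntegral ℤ t := Algebra.IsIntegral.isIntegral t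
  exact h1.map (lam hg S).toIntAlgHom

/-- the eigencharacter with values in the ring of algebraic integers -/
def lamInt : heckeAlgebra N 2 S →+* integralClosure ℤ ℂ :=
  (lam hg S).codRestrict (integralClosure ℤ ℂ).toSubring (isIntegral_lam hg S)

@[simp] theorem coe_lamInt (t : heckeAlgebra N 2 S) :
    ((lamInt hg S t : integralClosure ℤ ℂ) : ℂ) = lam hg S t := rfl

end Lam

/-! ### reduction modulo a prime -/

section Residue

variable [NeZero N]

/-- the image of a finitely generated `ℤ`-algebra-module in a field of characteristic `p` is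
finite -/
theorem finite_range_of_charP {T : Type*} [CommRing T] [Module.Finite ℤ T] {p : ℕ} (hp : p.Prime)
    {k : Type*} [Field k] [CharP k p] (ψ : T →+* k) : (Set.range ψ).Finite := by
  classical
  have : Fact p.Prime := ⟨hp⟩
  let _ := ZMod.algebra k p
  obtain ⟨s, hs⟩ := (Module.finite_def.mp (inferInstance : Module.Finite ℤ T))
  set W : Submodule (ZMod p) k := Submodule.span (ZMod p) (ψ '' (s : Set T)) with hW
  have hWfin : Module.Finite (ZMod p) W :=
    Module.Finite.span_of_finite (ZMod p) (Set.Finite.image _ s.finite_toSet)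
  have hWf : Finite W := Module.finite_of_finite (ZMod p)
  have hsub : Set.range ψ ⊆ (W : Set k) := by
    rintro _ ⟨t, rfl⟩
    have ht : t ∈ Submodule.span ℤ (s : Set T) := by rw [hs]; trivial
    induction ht using Submodule.span_induction with
    | mem x hx => exact Submodule.subset_span ⟨x, hx, rfl⟩
    | zero => rw [map_zero]; exact W.zero_mem
    | add x y _ _ hx hy => rw [map_add]; exact W.add_mem hx hy
    | smul n x _ hx =>
      rw [map_zsmul, ← Int.cast_smul_eq_zsmul (ZMod p) n (ψ x)]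
      exact W.smul_mem _ hx
  exact Set.Finite.subset (Set.toFinite (W : Set k)) hsub

/-- **Residual eigensystem.**  For a normalised eigenform `g` of level `N ≥ 1` and a ring
homomorphism `φ : ℤ̄ → k` into a field of characteristic `p`: a finite field `k0 ⊂ k` and a
character `θ` of the full Hecke algebra with values in `k0` reducing the eigenvalues of `g`. -/
theorem exists_residue_eigensystem (hg : g.IsNormalizedEigenform) {p : ℕ} (hp : p.Prime)
    {k : Type} [Field k] [CharP k p] (φ : integralClosure ℤ ℂ →+* k) :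
    ∃ (k0 : Type) (_ : Field k0) (_ : Finite k0) (_ : CharP k0 p) (ι : k0 →+* k)
      (θ : heckeAlgebra N 2 (∅ : Set ℕ) →+* k0),
      Function.Surjective θ ∧ (∀ t, ι (θ t) = φ (lamInt hg ∅ t)) ∧
      ∀ (ℓ : ℕ) (hℓ : ℓ.Prime) (hℓN : ¬ ℓ ∣ N), ∃ α : integralClosure ℤ ℂ,
        (α : ℂ) = qCoeff g ℓ ∧
          φ α = ι (θ (heckeAlgebra.T hℓ hℓN (Set.notMem_empty ℓ))) := by
  classical
  have hfinT : Module.Finite ℤ (heckeAlgebra N 2 (∅ : Set ℕ)) := Fermat.Agent.S22.result N 2 ∅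
  set ψ : heckeAlgebra N 2 (∅ : Set ℕ) →+* k := φ.comp (lamInt hg ∅) with hψ
  have hrange : (Set.range ψ).Finite := finite_range_of_charP hp ψ
  have hprime : (RingHom.ker ψ).IsPrime := RingHom.ker_isPrime ψ
  have hfin : Finite (heckeAlgebra N 2 (∅ : Set ℕ) ⧸ RingHom.ker ψ) := by
    have : Finite (Set.range ψ) := hrange.to_subtype
    refine Finite.of_injective
      (fun x => (⟨RingHom.kerLift ψ x, ?_⟩ : Set.range ψ)) ?_
    · obtain ⟨t, rfl⟩ := Ideal.Quotient.mk_surjective x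
      exact ⟨t, (RingHom.kerLift_mk ψ t).symm⟩
    · intro x y hxy
      exact RingHom.kerLift_injective ψ (congrArg Subtype.val hxy)
  have hmax : (RingHom.ker ψ).IsMaximal :=
    Ideal.Quotient.maximal_of_isField _
      (Finite.isField_of_domain (heckeAlgebra N 2 (∅ : Set ℕ) ⧸ RingHom.ker ψ))
  refine ⟨heckeAlgebra N 2 (∅ : Set ℕ) ⧸ RingHom.ker ψ, Ideal.Quotient.field _, hfin,
    (RingHom.kerLift ψ).charP (RingHom.kerLift_injective ψ) p, RingHom.kerLift ψ,
    Ideal.Quotient.mk _, Ideal.Quotient.mk_surjective, fun t => RingHom.kerLift_mk ψ t, ?_⟩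
  intro ℓ hℓ hℓN
  refine ⟨lamInt hg ∅ (heckeAlgebra.T hℓ hℓN (Set.notMem_empty ℓ)), ?_, ?_⟩
  · rw [coe_lamInt, lam_T]
  · exact (RingHom.kerLift_mk ψ _).symm

end Residue

end Fermat.Agent.GJ.J4Asm.EigChar
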