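/-
GATE-J / J4-EIGCHAR (helper4): adapter from `EigChar.exists_residue_eigensystem` to the `hcore`
hypothesis of `J4Asm.s29_of_core`.

`aOf θ ℓ := θ (T ℓ)` for `ℓ` prime not dividing `N`, `0` otherwise (helper31's normalisation in
IFACE:J4).  Given the three interface statements for EVERY finite field `k0` of characteristic `p`
and every character `θ` of the full Hecke algebra, the `hcore` datum exists.
-/
import Mathlib
import Fermat.Agent.GJ.J4.EigResidue
import Fermat.Agent.GJ.J4.S29Asm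

set_option autoImplicit false

noncomputable section

namespace Fermat.Agent.GJ.J4Asm.EigChar

open CongruenceSubgroup ModularFormClass CuspForm

variable {N : ℕ} [NeZero N]

/-- the system of eigenvalues of a character `θ` of the Hecke algebra, as a function on `ℕ` -/
def aOf {k0 : Type} [Field k0] (θ : heckeAlgebra N 2 (∅ : Set ℕ) →+* k0) (ℓ : ℕ) : k0 := by
  classical
  exact if h : ℓ.Prime ∧ ¬ ℓ ∣ N then θ (heckeAlgebra.T h.1 h.2 (Set.notMem_empty ℓ)) else 0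

theorem aOf_of_prime {k0 : Type} [Field k0] (θ : heckeAlgebra N 2 (∅ : Set ℕ) →+* k0) {ℓ : ℕ}
    (hℓ : ℓ.Prime) (hℓN : ¬ ℓ ∣ N) :
    aOf θ ℓ = θ (heckeAlgebra.T hℓ hℓN (Set.notMem_empty ℓ)) := by
  classical
  unfold aOf
  rw [dif_pos ⟨hℓ, hℓN⟩]

/-- **the `hcore` datum of `s29_of_core`** from the three interface statements over all finite
coefficient fields. -/
theorem hcore_of_interfaces {g : CuspForm (Gamma0 N) 2} (hg : g.IsNormalizedEigenform) {p : ℕ}
    (hp : p.Prime) {k : Type} [Field k] [CharP k p] (φ : integralClosure ℤ ℂ →+* k)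
    (hyp : ∀ (k0 : Type) [Field k0] [Finite k0] [CharP k0 p]
      (θ : heckeAlgebra N 2 (∅ : Set ℕ) →+* k0), Function.Surjective θ →
        RepTwoStmt k0 ∧ HasCycChar p k0 ∧ HasESModule N p k0 (aOf θ)) :
    ∃ (k0 : Type) (_ : Field k0) (ι : k0 →+* k) (a : ℕ → k0),
      RepTwoStmt k0 ∧ HasCycChar p k0 ∧ HasESModule N p k0 a ∧
      ∀ ℓ : ℕ, ℓ.Prime → ¬ ℓ ∣ N → ∃ α : integralClosure ℤ ℂ,
        (α : ℂ) = ModularFormClass.qCoeff g ℓ ∧ φ α = ι (a ℓ) := by
  obtain ⟨k0, hF, hfin, hchar, ι, θ, hsurj, -, hα⟩ := exists_residue_eigensystem hg hp φ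
  obtain ⟨h1, h2, h3⟩ := hyp k0 θ hsurj
  refine ⟨k0, hF, ι, aOf θ, h1, h2, h3, fun ℓ hℓ hℓN => ?_⟩
  obtain ⟨α, hα1, hα2⟩ := hα ℓ hℓ hℓN
  exact ⟨α, hα1, by rw [aOf_of_prime θ hℓ hℓN]; exact hα2⟩

end Fermat.Agent.GJ.J4Asm.EigChar
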