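/-
GATE-J / J4-ALG (helper27), Q5: a SIMPLE module with quadratic relations over a FINITE field has
dimension at most two.  Elementary: no Schur, no density, no commutant field.

`K` a finite field, `r : G →* End_K V` with `r g ^ 2 - a g • r g + d g = 0`, `d` a character,
`V` finite-dimensional without invariant subspaces other than `⊥`, `⊤`.  Write `S` for the span of
the `r g` (a finite subring of `End V`), and `(X, X') = (linRep r x, linRepStar r d x)` for the
star pairs of `Quad.lean`: `X + X' = s`, `X X' = X' X = t`, `Y X + X' Y' = c`, hence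
`X Y X = c X - t Y'`.

* (B) if some nonzero `X ∈ S` is not injective then `t = 0`, `range X` is a line, and
  `ker X ⊆ range X'` is at most a line, so `dim V ≤ 2` by rank-nullity
  (`finrank_le_two_of_not_injective`, any field `K`);
* (A) otherwise `S` is a finite domain, hence a field (little Wedderburn), its unit group is
  cyclic, generated by a root `θ` of a quadratic, so `S = K + K θ` and `V = S v` has `dim ≤ 2`
  (`finrank_le_two_of_injective`).
-/
import Fermat.Agent.GJ.J4.Quad

set_option autoImplicit false

namespace Fermat.Agent.GJ.J4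

variable {K : Type*} [Field K] {V : Type*} [AddCommGroup V] [Module K V]
variable {G : Type*} [Group G] {r : G →* Module.End K V} {d : G →* K} {a : G → K}

/-! ### star-pair identities -/

theorem star_mul_self {X X' : Module.End K V} {s t : K} (hs : X + X' = s • 1)
    (ht : X * X' = t • 1) : X' * X = t • 1 := by
  have h1 : X' = s • 1 - X := by rw [← hs]; abel
  rw [← ht, h1, sub_mul, mul_sub, smul_mul_assoc, mul_smul_comm, one_mul, mul_one]

/-- `Y X + X' Y'` is a scalar -/
theorem exists_trace_mul (hq : ∀ g, r g * r g - a g • r g + d g • 1 = 0) (x y : G →₀ K) :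
    ∃ c : K, linRep r y * linRep r x + linRepStar r d x * linRepStar r d y = c • 1 := by
  obtain ⟨sx, hsx⟩ := exists_trace hq x
  obtain ⟨sy, hsy⟩ := exists_trace hq y
  obtain ⟨c, hc⟩ := exists_cross hq x y
  refine ⟨sx * sy - c, ?_⟩
  have h1 : linRepStar r d x = sx • 1 - linRep r x := by rw [← hsx]; abel
  have h2 : linRepStar r d y = sy • 1 - linRep r y := by rw [← hsy]; abel
  rw [h1, h2] at hc ⊢
  rw [sub_smul, ← hc, mul_smul]
  simp only [mul_sub, sub_mul, smul_mul_assoc, mul_smul_comm, one_mul, mul_one, smul_sub]
  rw [smul_comm sy sx (1 : Module.End K V)]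
  abel

/-- the sandwich identity `X Y X = c X - t Y'`, with `c` the scalar `Y X + X' Y'` -/
theorem exists_sandwich (hq : ∀ g, r g * r g - a g • r g + d g • 1 = 0) (x y : G →₀ K) {t : K}
    (ht : linRep r x * linRepStar r d x = t • 1) :
    ∃ c : K, linRep r y * linRep r x + linRepStar r d x * linRepStar r d y = c • 1 ∧
      linRep r x * linRep r y * linRep r x = c • linRep r x - t • linRepStar r d y := by
  obtain ⟨c, hc⟩ := exists_trace_mul hq x y
  refine ⟨c, hc, ?_⟩
  have h1 : linRep r y * linRep r x = c • 1 - linRepStar r d x * linRepStar r d y := by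
    rw [← hc]; abel
  rw [mul_assoc, h1, mul_sub, mul_smul_comm, mul_one, ← mul_assoc, ht, smul_mul_assoc, one_mul]

/-! ### simplicity: `V = S u` for every `u ≠ 0` -/

theorem linRep_apply (x : G →₀ K) (u : V) :
    linRep r x u = x.sum fun g c => c • r g u := by
  simp [linRep, Finsupp.linearCombination_apply, Finsupp.sum, LinearMap.sum_apply]

theorem exists_linRep_apply_eq
    (hirr : ∀ W : Submodule K V, (∀ g, ∀ x ∈ W, r g x ∈ W) → W = ⊥ ∨ W = ⊤)
    {u : V} (hu : u ≠ 0) (w : V) : ∃ y : G →₀ K, linRep r y u = w := by
  set W : Submodule K V := Submodule.span K (Set.range fun h : G => r h u) with hW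
  have hinv : ∀ g, ∀ x ∈ W, r g x ∈ W := by
    intro g x hx
    induction hx using Submodule.span_induction with
    | mem x hx =>
      obtain ⟨h, rfl⟩ := hx
      apply Submodule.subset_span
      exact ⟨g * h, by simp [map_mul]⟩
    | zero => simp
    | add x y _ _ hx hy => rw [map_add]; exact W.add_mem hx hy
    | smul c x _ hx => rw [map_smul]; exact W.smul_mem c hx
  have hu_mem : u ∈ W := Submodule.subset_span ⟨1, by simp⟩
  rcases hirr W hinv with h | h
  · exfalso
    rw [h] at hu_mem
    exact hu (by simpa using hu_mem)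
  · have hw : w ∈ W := h ▸ Submodule.mem_top
    obtain ⟨y, hy⟩ := (Finsupp.mem_span_range_iff_exists_finsupp).mp hw
    exact ⟨y, by rw [linRep_apply]; exact hy⟩

/-! ### case (B): a nonzero non-injective element -/

theorem norm_eq_zero_of_not_injective {X X' : Module.End K V} {s t : K} (hs : X + X' = s • 1)
    (ht : X * X' = t • 1) (hni : ¬ Function.Injective X) : t = 0 := by
  by_contra ht0
  apply hni
  have h1 := star_mul_self hs ht
  intro v w hvw
  have h2 : X' (X v) = X' (X w) := by rw [hvw]
  have h3 : ∀ z, X' (X z) = t • z := fun z => by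
    have := LinearMap.congr_fun h1 z
    simpa using this
  rw [h3, h3] at h2
  exact smul_right_injective V ht0 h2

theorem exists_apply_ne_zero {X : Module.End K V} (hX : X ≠ 0) : ∃ u, X u ≠ 0 := by
  by_contra h
  push Not at h
  exact hX (LinearMap.ext h)

/-- the range of a nonzero non-injective element of `S` is (at most) a line -/
theorem range_le_of_not_injective (hq : ∀ g, r g * r g - a g • r g + d g • 1 = 0)
    (hirr : ∀ W : Submodule K V, (∀ g, ∀ x ∈ W, r g x ∈ W) → W = ⊥ ∨ W = ⊤)
    (x : G →₀ K) (hx : linRep r x ≠ 0) (hni : ¬ Function.Injective (linRep r x)) :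
    ∃ u0 : V, ∀ w, ∃ c : K, linRep r x w = c • u0 := by
  obtain ⟨s, hs⟩ := exists_trace hq x
  obtain ⟨t, ht⟩ := exists_norm hq x
  have ht0 : t = 0 := norm_eq_zero_of_not_injective hs ht hni
  obtain ⟨u, hu⟩ := exists_apply_ne_zero hx
  refine ⟨linRep r x u, fun w => ?_⟩
  obtain ⟨y, hy⟩ := exists_linRep_apply_eq hirr hu w
  obtain ⟨c, -, hc⟩ := exists_sandwich hq x y ht
  refine ⟨c, ?_⟩
  have := LinearMap.congr_fun hc u
  rw [ht0, zero_smul, sub_zero] at this
  rw [← hy]
  simpa using this

theorem finrank_span_singleton_le_one (u : V) :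
    Module.finrank K (Submodule.span K ({u} : Set V)) ≤ 1 := by
  by_cases hu : u = 0
  · rw [hu, Submodule.span_zero_singleton, finrank_bot]
    exact Nat.zero_le 1
  · rw [finrank_span_singleton hu]

/-- case (B) -/
theorem finrank_le_two_of_not_injective [Module.Finite K V]
    (hq : ∀ g, r g * r g - a g • r g + d g • 1 = 0)
    (hirr : ∀ W : Submodule K V, (∀ g, ∀ x ∈ W, r g x ∈ W) → W = ⊥ ∨ W = ⊤)
    (x : G →₀ K) (hx : linRep r x ≠ 0) (hni : ¬ Function.Injective (linRep r x)) :
    Module.finrank K V ≤ 2 := by
  obtain ⟨s, hs⟩ := exists_trace hq x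
  obtain ⟨t, ht⟩ := exists_norm hq x
  have ht0 : t = 0 := norm_eq_zero_of_not_injective hs ht hni
  have hstar : linRepStar r d x = s • 1 - linRep r x := by rw [← hs]; abel
  obtain ⟨u, hu⟩ := exists_apply_ne_zero hx
  -- the partner `X'` is `linRep r x'`
  set x' : G →₀ K := s • Finsupp.single 1 1 - x with hx'
  have hX' : linRep r x' = linRepStar r d x := by
    rw [hx', map_sub, map_smul, linRep_single, one_smul, map_one, hstar]
  have hX'ne : linRep r x' ≠ 0 := by
    intro h0
    rw [hX', hstar, sub_eq_zero] at h0
    -- `X = s • 1` is not injective, so `s = 0` and `X = 0`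
    have hs0 : s = 0 := by
      by_contra hs0
      apply hni
      rw [← h0]
      intro v w hvw
      simp only [LinearMap.smul_apply, Module.End.one_apply] at hvw
      exact smul_right_injective V hs0 hvw
    apply hx
    rw [← h0, hs0, zero_smul]
  have hX'ni : ¬ Function.Injective (linRep r x') := by
    intro hinj
    have h1 := star_mul_self hs ht
    have h2 : linRep r x' (linRep r x u) = 0 := by
      rw [hX']
      have := LinearMap.congr_fun h1 u
      rw [ht0, zero_smul] at this
      simpa using this
    exact hu (hinj (by rw [h2, map_zero]))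
  obtain ⟨u0, h0⟩ := range_le_of_not_injective hq hirr x hx hni
  obtain ⟨u1, h1⟩ := range_le_of_not_injective hq hirr x' hX'ne hX'ni
  have hrange : LinearMap.range (linRep r x) ≤ Submodule.span K {u0} := by
    rintro _ ⟨w, rfl⟩
    obtain ⟨c, hc⟩ := h0 w
    rw [hc]
    exact Submodule.smul_mem _ _ (Submodule.subset_span rfl)
  have hker : LinearMap.ker (linRep r x) ≤ Submodule.span K {u1} := by
    intro w hw
    rw [LinearMap.mem_ker] at hw
    obtain ⟨y, hy⟩ := exists_linRep_apply_eq hirr hu w
    obtain ⟨c, hc1, hc2⟩ := exists_sandwich hq x y ht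
    have h2 := LinearMap.congr_fun hc2 u
    rw [ht0, zero_smul, sub_zero] at h2
    have h3 : c • linRep r x u = 0 := by
      rw [← hw, ← hy]
      simpa using h2.symm
    have hc0 : c = 0 := by
      rcases smul_eq_zero.mp h3 with h | h
      · exact h
      · exact absurd h hu
    rw [hc0, zero_smul] at hc1
    have h4 := LinearMap.congr_fun hc1 u
    have h5 : w = linRep r x' (-(linRepStar r d y u)) := by
      rw [hX', map_neg, ← hy]
      have : linRep r y (linRep r x u) + linRepStar r d x (linRepStar r d y u) = 0 := by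
        simpa using h4
      exact eq_neg_of_add_eq_zero_left this
    obtain ⟨c1, hc1'⟩ := h1 (-(linRepStar r d y u))
    rw [h5, hc1']
    exact Submodule.smul_mem _ _ (Submodule.subset_span rfl)
  have e1 := LinearMap.finrank_range_add_finrank_ker (linRep r x)
  have e2 := (Submodule.finrank_mono hrange).trans (finrank_span_singleton_le_one u0)
  have e3 := (Submodule.finrank_mono hker).trans (finrank_span_singleton_le_one u1)
  omega

/-! ### case (A): all nonzero elements injective -/

theorem linRep_mem_span (x : G →₀ K) : linRep r x ∈ Submodule.span K (Set.range r) := by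
  refine Finsupp.mem_span_range_iff_exists_finsupp.mpr ⟨x, ?_⟩
  simp [linRep, Finsupp.linearCombination_apply]

theorem exists_linRep_eq_of_mem_span {T : Module.End K V}
    (hT : T ∈ Submodule.span K (Set.range r)) : ∃ x : G →₀ K, linRep r x = T := by
  obtain ⟨x, hx⟩ := Finsupp.mem_span_range_iff_exists_finsupp.mp hT
  exact ⟨x, by rw [← hx]; simp [linRep, Finsupp.linearCombination_apply]⟩

theorem adjoin_toSubmodule (r : G →* Module.End K V) :
    Subalgebra.toSubmodule (Algebra.adjoin K (Set.range r)) = Submodule.span K (Set.range r) := by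
  rw [Algebra.adjoin_eq_span]
  congr 1
  have : (Submonoid.closure (Set.range r) : Set (Module.End K V)) = Set.range r := by
    rw [← MonoidHom.coe_mrange, Submonoid.closure_eq]
  exact this

theorem pow_mem_span_pair {T : Module.End K V} {s t : K} (h : T * T - s • T + t • 1 = 0) (n : ℕ) :
    T ^ n ∈ Submodule.span K ({1, T} : Set (Module.End K V)) := by
  have hT2 : T * T = s • T - t • 1 := by
    rw [← sub_eq_zero, ← h]; abel
  induction n with
  | zero =>
    rw [pow_zero]
    exact Submodule.subset_span (Set.mem_insert _ _)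
  | succ n ih =>
    obtain ⟨α, β, hαβ⟩ := Submodule.mem_span_pair.mp ih
    rw [pow_succ, ← hαβ, add_mul, smul_mul_assoc, smul_mul_assoc, one_mul, hT2]
    refine Submodule.mem_span_pair.mpr ⟨-(β * t), α + β * s, ?_⟩
    rw [smul_sub, smul_smul, smul_smul, add_smul, neg_smul]
    abel

/-- case (A) -/
theorem finrank_le_two_of_injective [Finite K] [Module.Finite K V] [Nontrivial V]
    (hq : ∀ g, r g * r g - a g • r g + d g • 1 = 0)
    (hirr : ∀ W : Submodule K V, (∀ g, ∀ x ∈ W, r g x ∈ W) → W = ⊥ ∨ W = ⊤)
    (hinj : ∀ x : G →₀ K, linRep r x ≠ 0 → Function.Injective (linRep r x)) :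
    Module.finrank K V ≤ 2 := by
  classical
  set A : Subalgebra K (Module.End K V) := Algebra.adjoin K (Set.range r) with hA
  have hmem : ∀ X : Module.End K V, X ∈ A ↔ X ∈ Submodule.span K (Set.range r) := by
    intro X
    rw [← adjoin_toSubmodule r]
    rfl
  have hAinj : ∀ X : A, X ≠ 0 → Function.Injective (X : Module.End K V) := by
    intro X hX
    obtain ⟨x, hx⟩ := exists_linRep_eq_of_mem_span ((hmem _).mp X.2)
    rw [← hx]
    apply hinj
    rw [hx]
    intro h0
    exact hX (Subtype.ext h0)
  have : Finite V := Module.finite_of_finite K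
  have : Finite (Module.End K V) :=
    Finite.of_injective (fun f : Module.End K V => (f : V → V)) DFunLike.coe_injective
  have : Nontrivial A := by
    refine ⟨⟨0, 1, fun h => ?_⟩⟩
    obtain ⟨v, hv⟩ := exists_ne (0 : V)
    have h1 : ((0 : A) : Module.End K V) v = ((1 : A) : Module.End K V) v := by rw [h]
    simp at h1
    exact hv h1.symm
  have : NoZeroDivisors A := by
    refine ⟨fun {X Y} hXY => ?_⟩
    by_cases hX : X = 0
    · exact Or.inl hX
    · right
      apply Subtype.ext
      apply LinearMap.ext
      intro v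
      have h1 : ((X * Y : A) : Module.End K V) v = 0 := by rw [hXY]; simp
      have h2 : (X : Module.End K V) ((Y : Module.End K V) v) = 0 := by simpa using h1
      have := hAinj X hX (by rw [h2, map_zero] : (X : Module.End K V) ((Y : Module.End K V) v) =
        (X : Module.End K V) 0)
      simpa using this
  have : IsDomain A := NoZeroDivisors.to_isDomain A
  have hF : IsField A := Finite.isDomain_to_isField A
  let _ : CommRing A := { (inferInstance : Ring A) with mul_comm := hF.mul_comm }
  obtain ⟨θ, hθ⟩ := IsCyclic.exists_monoid_generator (α := Aˣ)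
  set T : Module.End K V := ((θ : A) : Module.End K V) with hT
  obtain ⟨s, t, hst⟩ := exists_quadratic_of_mem_span hq ((hmem T).mp (θ : A).2)
  have hspan : ∀ Y : A, (Y : Module.End K V) ∈ Submodule.span K ({1, T} : Set (Module.End K V)) := by
    intro Y
    by_cases hY : Y = 0
    · rw [hY]; simp
    · obtain ⟨Z, hZ⟩ := hF.mul_inv_cancel hY
      have hZ' : Z * Y = 1 := by rw [hF.mul_comm]; exact hZ
      obtain ⟨n, hn⟩ := hθ ⟨Y, Z, hZ, hZ'⟩
      have h1 : Y = (θ : A) ^ n := by
        have := congrArg (fun u : Aˣ => (u : A)) hn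
        simpa using this.symm
      rw [h1, Subalgebra.coe_pow]
      exact pow_mem_span_pair hst n
  obtain ⟨u, hu⟩ := exists_ne (0 : V)
  have htop : (⊤ : Submodule K V) ≤ Submodule.span K (({u, T u} : Finset V) : Set V) := by
    intro w _
    obtain ⟨y, hy⟩ := exists_linRep_apply_eq hirr hu w
    have hyA : linRep r y ∈ A := (hmem _).mpr (linRep_mem_span y)
    obtain ⟨α, β, hαβ⟩ := Submodule.mem_span_pair.mp (hspan ⟨linRep r y, hyA⟩)
    rw [← hy]
    have h2 : linRep r y u = α • u + β • T u := by
      have := LinearMap.congr_fun hαβ u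
      simpa using this.symm
    rw [h2, Finset.coe_insert, Finset.coe_singleton]
    exact Submodule.mem_span_pair.mpr ⟨α, β, rfl⟩
  have h1 : Module.finrank K V ≤ Module.finrank K
      (Submodule.span K (({u, T u} : Finset V) : Set V)) := by
    rw [← finrank_top K V]
    exact Submodule.finrank_mono htop
  have h2 := finrank_span_finset_le_card (R := K) ({u, T u} : Finset V)
  have h3 : ({u, T u} : Finset V).card ≤ 2 := Finset.card_le_two
  exact h1.trans (h2.trans h3)

/-- **Q5**: a simple module with quadratic relations over a finite field has dimension at most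
two. -/
theorem finrank_le_two_of_simple [Finite K] [Module.Finite K V]
    (hirr : ∀ W : Submodule K V, (∀ g, ∀ x ∈ W, r g x ∈ W) → W = ⊥ ∨ W = ⊤)
    (hq : ∀ g, r g * r g - a g • r g + d g • 1 = 0) :
    Module.finrank K V ≤ 2 := by
  rcases subsingleton_or_nontrivial V with hV | hV
  · rw [Module.finrank_zero_of_subsingleton]
    exact Nat.zero_le 2
  · by_cases hinj : ∀ x : G →₀ K, linRep r x ≠ 0 → Function.Injective (linRep r x)
    · exact finrank_le_two_of_injective hq hirr hinj
    · push Not at hinj
      obtain ⟨x, hx, hni⟩ := hinj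
      exact finrank_le_two_of_not_injective hq hirr x hx hni

end Fermat.Agent.GJ.J4
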