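/-
GATE-J / J4-THETA (helper35): from a normalised eigenform `g` and a residue map `φ : ℤ̄ → k`
(char `p`) to a FINITE field `k0 ⊆ k` and a ring homomorphism `θ : 𝕋_S → k0` of the weight-2
Hecke algebra with `φ (a_ℓ(g)) = ι (θ T_ℓ)`.

* `heckeTLin_eq_smul`: `T_ℓ g = a_ℓ(g) • g` for `ℓ ∤ N` (from the `q`-coefficient relations of
  `IsNormalizedEigenform`).
* `exists_thetaC`: the eigencharacter `𝕋_S →+* ℂ` (for `S` containing the primes of `N`).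
* `exists_theta`: the finite field `k0`, `ι : k0 →+* k`, `θ : 𝕋_S →+* k0`
  (uses the landed S22: `𝕋_S` is a finitely generated `ℤ`-module).
-/
import Mathlib
import Fermat.Prelude.Def_GaloisRep_Residual
import Fermat.Prelude.Def_CuspForm_HeckeAlgebra
import Fermat.Agent.S22
import Fermat.Agent.S49_helper65.Eigenform

set_option autoImplicit false

namespace Fermat.Agent.GJ.J4.Theta

open CongruenceSubgroup ModularFormClass UpperHalfPlane CuspForm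
open Fermat.Agent.S49_helper65

variable {N : ℕ}

theorem qCoeff_add_cusp (f g : CuspForm (Gamma0 N) 2) (n : ℕ) :
    qCoeff (f + g : CuspForm (Gamma0 N) 2) n = qCoeff f n + qCoeff g n := by
  unfold qCoeff
  have h1 : (⇑(f + g : CuspForm (Gamma0 N) 2) : ℍ → ℂ) = ⇑f + ⇑g := rfl
  rw [h1, ModularForm.qExpansion_add one_pos (one_mem_strictPeriods_Gamma0 N) f g]
  simp

/-- `T_ℓ g = a_ℓ(g) • g` for a normalised eigenform `g` and `ℓ ∤ N`. -/
theorem heckeTLin_eq_smul {g : CuspForm (Gamma0 N) 2} (hg : g.IsNormalizedEigenform)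
    {ℓ : ℕ} (hℓ : ℓ.Prime) (hℓN : ¬ ℓ ∣ N) :
    CuspForm.heckeTLin 2 hℓ hℓN g = qCoeff g ℓ • g := by
  rw [← sub_eq_zero]
  apply cusp_eq_zero_of_qCoeff
  intro n
  have hsub : qCoeff (CuspForm.heckeTLin 2 hℓ hℓN g - qCoeff g ℓ • g : CuspForm (Gamma0 N) 2) n =
      qCoeff (CuspForm.heckeTLin 2 hℓ hℓN g) n - qCoeff g ℓ * qCoeff g n := by
    have h1 : (CuspForm.heckeTLin 2 hℓ hℓN g - qCoeff g ℓ • g : CuspForm (Gamma0 N) 2) =
        CuspForm.heckeTLin 2 hℓ hℓN g + (-(qCoeff g ℓ)) • g := by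
      ext τ
      simp [sub_eq_add_neg]
    rw [h1, qCoeff_add_cusp, qCoeff_smul_cusp]
    ring
  rw [hsub, sub_eq_zero, qCoeff_heckeTLin]
  rcases Nat.eq_zero_or_pos n with rfl | hn
  · simp [qCoeff_zero_cusp]
  obtain ⟨r, m, hm, rfl⟩ := Nat.exists_eq_pow_mul_and_not_dvd hn.ne' ℓ hℓ.ne_one
  have hcop : ∀ j : ℕ, Nat.Coprime (ℓ ^ j) m := fun j =>
    Nat.Coprime.pow_left j ((Nat.Prime.coprime_iff_not_dvd hℓ).mpr hm)
  cases r with
  | zero =>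
    have hnd : ¬ ℓ ∣ ℓ ^ 0 * m := by simpa using hm
    rw [if_neg hnd, add_zero, pow_zero, one_mul, mul_comm m ℓ,
      hg.qCoeff_mul_of_coprime ℓ m (by simpa using hcop 1)]
  | succ r =>
    have hd : ℓ ∣ ℓ ^ (r + 1) * m := Dvd.dvd.mul_right (dvd_pow_self ℓ (Nat.succ_ne_zero r)) m
    have hdiv : ℓ ^ (r + 1) * m / ℓ = ℓ ^ r * m := by
      rw [pow_succ, mul_assoc, mul_comm ℓ m, ← mul_assoc]
      exact Nat.mul_div_cancel _ hℓ.pos
    have hmul : ℓ ^ (r + 1) * m * ℓ = ℓ ^ (r + 2) * m := by ring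
    rw [if_pos hd, hdiv, hmul, hg.qCoeff_mul_of_coprime _ _ (hcop (r + 2)),
      hg.qCoeff_mul_of_coprime _ _ (hcop r), hg.qCoeff_mul_of_coprime _ _ (hcop (r + 1)),
      hg.qCoeff_prime_pow_of_not_dvd ℓ r hℓ hℓN]
    ring

/-! ### The eigencharacter -/

section Eigenchar

variable [NeZero N] {g : CuspForm (Gamma0 N) 2} (hg : g.IsNormalizedEigenform)
  (S : Set ℕ) (hS : ∀ ℓ : ℕ, ℓ.Prime → ℓ ∣ N → ℓ ∈ S)

include hg hS in
/-- `g` is an eigenvector of every element of the Hecke algebra away from `S ⊇ {primes of N}`. -/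
theorem exists_eigenvalue (T : Module.End ℂ (CuspForm (Gamma0 N) 2))
    (hT : T ∈ CuspForm.heckeAlgebra N 2 S) : ∃ c : ℂ, T g = c • g := by
  refine Algebra.adjoin_induction (p := fun T _ => ∃ c : ℂ, T g = c • g) ?_ ?_ ?_ ?_ hT
  · rintro T (⟨ℓ, hℓ, hℓN, -, rfl⟩ | ⟨q, hqN, hq, hqS, rfl⟩)
    · exact ⟨qCoeff g ℓ, heckeTLin_eq_smul hg hℓ hℓN⟩
    · exact absurd (hS q hq hqN) hqS
  · intro r
    refine ⟨(r : ℂ), ?_⟩
    rw [Algebra.algebraMap_eq_smul_one, LinearMap.smul_apply, Module.End.one_apply]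
    ext τ
    simp
  · rintro T T' - - ⟨c, hc⟩ ⟨c', hc'⟩
    exact ⟨c + c', by rw [LinearMap.add_apply, hc, hc', add_smul]⟩
  · rintro T T' - - ⟨c, hc⟩ ⟨c', hc'⟩
    exact ⟨c' * c, by rw [Module.End.mul_apply, hc', map_smul, hc, smul_smul]⟩

include hg hS in
theorem apply_eq_qCoeff_smul (T : Module.End ℂ (CuspForm (Gamma0 N) 2))
    (hT : T ∈ CuspForm.heckeAlgebra N 2 S) : T g = qCoeff (T g) 1 • g := by
  obtain ⟨c, hc⟩ := exists_eigenvalue hg S hS T hT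
  rw [hc, qCoeff_smul_cusp, hg.qCoeff_one, mul_one]

/-- The eigencharacter of `g` on the Hecke algebra. -/
noncomputable def thetaC : ↥(CuspForm.heckeAlgebra N 2 S) →+* ℂ where
  toFun T := qCoeff ((T : Module.End ℂ (CuspForm (Gamma0 N) 2)) g) 1
  map_one' := by
    show qCoeff (((1 : Module.End ℂ (CuspForm (Gamma0 N) 2))) g) 1 = 1
    rw [Module.End.one_apply, hg.qCoeff_one]
  map_mul' T T' := by
    show qCoeff (((T : Module.End ℂ (CuspForm (Gamma0 N) 2)) *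
      (T' : Module.End ℂ (CuspForm (Gamma0 N) 2))) g) 1 = _
    rw [Module.End.mul_apply, apply_eq_qCoeff_smul hg S hS _ T'.2, map_smul,
      apply_eq_qCoeff_smul hg S hS _ T.2, qCoeff_smul_cusp, qCoeff_smul_cusp, qCoeff_smul_cusp,
      hg.qCoeff_one]
    ring
  map_zero' := by
    show qCoeff (((0 : Module.End ℂ (CuspForm (Gamma0 N) 2))) g) 1 = 0
    rw [LinearMap.zero_apply]
    have := qCoeff_smul_cusp (0 : ℂ) g 1
    rwa [zero_smul, zero_mul] at this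
  map_add' T T' := by
    show qCoeff (((T : Module.End ℂ (CuspForm (Gamma0 N) 2)) +
      (T' : Module.End ℂ (CuspForm (Gamma0 N) 2))) g) 1 = _
    rw [LinearMap.add_apply, qCoeff_add_cusp]

theorem apply_eq_thetaC_smul (T : ↥(CuspForm.heckeAlgebra N 2 S)) :
    (T : Module.End ℂ (CuspForm (Gamma0 N) 2)) g = thetaC hg S hS T • g :=
  apply_eq_qCoeff_smul hg S hS _ T.2

theorem thetaC_T {ℓ : ℕ} (hℓ : ℓ.Prime) (hℓN : ¬ ℓ ∣ N) (hℓS : ℓ ∉ S) :
    thetaC hg S hS (CuspForm.heckeAlgebra.T hℓ hℓN hℓS) = qCoeff g ℓ := by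
  show qCoeff ((CuspForm.heckeTLin 2 hℓ hℓN) g) 1 = _
  rw [heckeTLin_eq_smul hg hℓ hℓN, qCoeff_smul_cusp, hg.qCoeff_one, mul_one]

end Eigenchar

/-! ### The finite coefficient field -/

section Finite

variable [NeZero N] {g : CuspForm (Gamma0 N) 2} (hg : g.IsNormalizedEigenform)
  (S : Set ℕ) (hS : ∀ ℓ : ℕ, ℓ.Prime → ℓ ∣ N → ℓ ∈ S)

theorem isIntegral_thetaC (T : ↥(CuspForm.heckeAlgebra N 2 S)) :
    IsIntegral ℤ (thetaC hg S hS T) := by
  haveI : Module.Finite ℤ ↥(CuspForm.heckeAlgebra N 2 S) := Fermat.Agent.S22.result N 2 S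
  have h1 : IsIntegral ℤ T := IsIntegral.of_finite ℤ T
  exact map_isIntegral_int (thetaC hg S hS) h1

/-- The eigencharacter with values in `ℤ̄`. -/
noncomputable def thetaZbar : ↥(CuspForm.heckeAlgebra N 2 S) →+* integralClosure ℤ ℂ :=
  (thetaC hg S hS).codRestrict (integralClosure ℤ ℂ) (isIntegral_thetaC hg S hS)

theorem coe_thetaZbar (T : ↥(CuspForm.heckeAlgebra N 2 S)) :
    ((thetaZbar hg S hS T : integralClosure ℤ ℂ) : ℂ) = thetaC hg S hS T := rfl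

include hg hS in
/-- **J4-THETA.** The finite coefficient field `k0`, its embedding `ι : k0 →+* k`, and the
eigencharacter `θ : 𝕋_S →+* k0` of `g` modulo `ker φ`. -/
theorem exists_theta {p : ℕ} (hp : p.Prime) {k : Type} [Field k] [CharP k p]
    (φ : integralClosure ℤ ℂ →+* k) :
    ∃ (k0 : Type) (_ : Field k0) (_ : Finite k0) (_ : CharP k0 p) (ι : k0 →+* k)
      (θ : ↥(CuspForm.heckeAlgebra N 2 S) →+* k0),
      ∀ (ℓ : ℕ) (hℓ : ℓ.Prime) (hℓN : ¬ ℓ ∣ N) (hℓS : ℓ ∉ S),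
        ∃ α : integralClosure ℤ ℂ, (α : ℂ) = qCoeff g ℓ ∧
          φ α = ι (θ (CuspForm.heckeAlgebra.T hℓ hℓN hℓS)) := by
  set f : ↥(CuspForm.heckeAlgebra N 2 S) →+* k := φ.comp (thetaZbar hg S hS) with hf
  haveI : (RingHom.ker f).IsPrime := RingHom.ker_isPrime f
  haveI : Module.Finite ℤ ↥(CuspForm.heckeAlgebra N 2 S) := Fermat.Agent.S22.result N 2 S
  have hpI : ((p : ℕ) : ↥(CuspForm.heckeAlgebra N 2 S)) ∈ RingHom.ker f := by
    rw [RingHom.mem_ker, map_natCast, CharP.cast_eq_zero]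
  haveI : Finite (↥(CuspForm.heckeAlgebra N 2 S) ⧸ RingHom.ker f) := by
    haveI : Module.Finite ℤ (↥(CuspForm.heckeAlgebra N 2 S) ⧸ RingHom.ker f) :=
      Module.Finite.of_surjective (Ideal.Quotient.mkₐ ℤ (RingHom.ker f)).toLinearMap
        (Ideal.Quotient.mkₐ_surjective ℤ _)
    refine Module.finite_of_fg_torsion _ fun x => ?_
    refine ⟨⟨(p : ℤ), mem_nonZeroDivisors_of_ne_zero (by exact_mod_cast hp.ne_zero)⟩, ?_⟩
    obtain ⟨y, rfl⟩ := Ideal.Quotient.mk_surjective x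
    show ((p : ℤ)) • (Ideal.Quotient.mk (RingHom.ker f) y) = 0
    rw [← map_zsmul, Ideal.Quotient.eq_zero_iff_mem, zsmul_eq_mul, Int.cast_natCast]
    exact Ideal.mul_mem_right _ _ hpI
  have hfield : IsField (↥(CuspForm.heckeAlgebra N 2 S) ⧸ RingHom.ker f) :=
    Finite.isField_of_domain _
  haveI : (RingHom.ker f).IsMaximal := Ideal.Quotient.maximal_of_isField _ hfield
  letI : Field (↥(CuspForm.heckeAlgebra N 2 S) ⧸ RingHom.ker f) :=
    Ideal.Quotient.field (RingHom.ker f)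
  refine ⟨↥(CuspForm.heckeAlgebra N 2 S) ⧸ RingHom.ker f, inferInstance, inferInstance, ?_,
    RingHom.kerLift f, Ideal.Quotient.mk (RingHom.ker f), ?_⟩
  · exact RingHom.charP (RingHom.kerLift f) (RingHom.kerLift_injective f) p
  · intro ℓ hℓ hℓN hℓS
    refine ⟨thetaZbar hg S hS (CuspForm.heckeAlgebra.T hℓ hℓN hℓS), ?_, ?_⟩
    · rw [coe_thetaZbar, thetaC_T]
    · rw [RingHom.kerLift_mk]
      rfl

include hg hS in
/-- The same with the eigenvalues packaged as a function `a : ℕ → k0` (shape consumed by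
`J4Asm.s29_of_core`; take `S := {ℓ | ℓ ∣ N}` to cover all `ℓ ∤ N`). -/
theorem exists_theta_fun {p : ℕ} (hp : p.Prime) {k : Type} [Field k] [CharP k p]
    (φ : integralClosure ℤ ℂ →+* k) :
    ∃ (k0 : Type) (_ : Field k0) (_ : Finite k0) (_ : CharP k0 p) (ι : k0 →+* k)
      (θ : ↥(CuspForm.heckeAlgebra N 2 S) →+* k0) (a : ℕ → k0),
      (∀ (ℓ : ℕ) (hℓ : ℓ.Prime) (hℓN : ¬ ℓ ∣ N) (hℓS : ℓ ∉ S),
        a ℓ = θ (CuspForm.heckeAlgebra.T hℓ hℓN hℓS)) ∧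
      ∀ ℓ : ℕ, ℓ.Prime → ¬ ℓ ∣ N → ℓ ∉ S →
        ∃ α : integralClosure ℤ ℂ, (α : ℂ) = qCoeff g ℓ ∧ φ α = ι (a ℓ) := by
  classical
  obtain ⟨k0, _, hfin, hchar, ι, θ, h⟩ := exists_theta hg S hS hp φ
  refine ⟨k0, inferInstance, hfin, hchar, ι, θ,
    fun ℓ => if h : ℓ.Prime ∧ ¬ ℓ ∣ N ∧ ℓ ∉ S then
      θ (CuspForm.heckeAlgebra.T h.1 h.2.1 h.2.2) else 0, ?_, ?_⟩
  · intro ℓ hℓ hℓN hℓS
    have hc : ℓ.Prime ∧ ¬ ℓ ∣ N ∧ ℓ ∉ S := ⟨hℓ, hℓN, hℓS⟩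
    simp only [dif_pos hc]
  · intro ℓ hℓ hℓN hℓS
    obtain ⟨α, hα, hφ⟩ := h ℓ hℓ hℓN hℓS
    refine ⟨α, hα, ?_⟩
    have hc : ℓ.Prime ∧ ¬ ℓ ∣ N ∧ ℓ ∉ S := ⟨hℓ, hℓN, hℓS⟩
    simp only [dif_pos hc]
    exact hφ

end Finite

end Fermat.Agent.GJ.J4.Theta
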